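import Mathlib

/-!
# Row S56 — W-FLAT-SS, leaf INT (helper914): finiteness of a Galois extension of domains

`moduleFinite_of_isGaloisGroup` : if a finite group `G` acts faithfully on an integrally closed
domain `B` with ring of invariants the Noetherian integrally closed domain `A`, then `B` is a
finite `A`-module.  (Mathlib only.)
-/

set_option autoImplicit false
set_option linter.style.haveILetI false

noncomputable section

namespace Fermat.Agent.S56.H914

theorem moduleFinite_of_isGaloisGroup (G A B : Type*) [Group G] [Finite G]
    [CommRing A] [IsDomain A] [IsIntegrallyClosed A] [IsNoetherianRing A]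
    [CommRing B] [IsDomain B] [IsIntegrallyClosed B]
    [Algebra A B] [FaithfulSMul A B] [MulSemiringAction G B] [IsGaloisGroup G A B] :
    Module.Finite A B := by
  letI := FractionRing.liftAlgebra A (FractionRing B)
  letI := IsFractionRing.mulSemiringAction G B (FractionRing B)
  haveI : IsGaloisGroup G (FractionRing A) (FractionRing B) := inferInstance
  haveI : FiniteDimensional (FractionRing A) (FractionRing B) :=
    IsGaloisGroup.finiteDimensional G _ _
  haveI : IsGalois (FractionRing A) (FractionRing B) := IsGaloisGroup.isGalois G _ _
  haveI : Algebra.IsIntegral A B := Algebra.IsInvariant.isIntegral A B G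
  haveI : IsIntegralClosure B A (FractionRing B) :=
    IsIntegralClosure.of_isIntegrallyClosed B A (FractionRing B)
  exact IsIntegralClosure.finite A (FractionRing A) (FractionRing B) B

end Fermat.Agent.S56.H914

end
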