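import Fermat.Agent.S56.H914.IntDVRB
import Fermat.Agent.S56.H914.IntFin

/-!
# Row S56 — W-FLAT-SS, leaf INT (helper914): `intStatement : FL.IntStatement`

The concrete model `A = P ∩ ℚ̄^{D_P}`, `B = levelSet = P ∩ ℚ̄^N`, `Γ = D_P ⧸ N`.

* `mem_intKer_of_fixes` : (flatness) an element of `G_ℚ` fixing `levelSet` pointwise lies in `N`
  (the coordinates of the points of the two finite flat models lie in `levelSet`).
* `apply_primitiveRoot_of_rho_eq_one` : `ρ̄ σ = 1 ⇒ σ ζ_p = ζ_p` (determinant condition).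
* `intStatement` : the frozen `FL.IntStatement`.
-/

set_option autoImplicit false
set_option linter.style.haveILetI false

open Polynomial IsLocalRing

noncomputable section

namespace Fermat.Agent.S56.H914

open Fermat.Agent.S56 Fermat.Agent.S56.H716 Fermat.Agent.S56.FL

section Points

variable {k : Type} [Field k] {ρbar : ResidualGaloisRep k} {p : ℕ} [Fact p.Prime]
  {P : ValuationSubring Qb}

/-- Values of points of a finite `ℤ_(p)`-algebra lie in `P`. -/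
lemma point_mem_P (M : LocalModel p P) {H : Type} [CommRing H] [HopfAlgebra (Zp p) H]
    [Module.Finite (Zp p) H] (f : H →ₐ[Zp p] Qb) (h : H) : f h ∈ P :=
  (M.mem_iff _).mpr (norm_point_le_one p (M.ιZ.comp f) h)

/-- (Flatness.)  An element of `G_ℚ` fixing `levelSet` pointwise satisfies `ρ̄ σ = 1`, `c₁ σ = 0`,
`c₂ σ = 0`. -/
theorem mem_intKer_of_fixes [Finite k] (M : LocalModel p P)
    {c₁ c₂ : GQ → Module.End k ρbar.V}
    {ρ₁ ρ₂ : GaloisRepAdic (DualNumber k)} (hl₁ : IsLiftOf ρbar c₁ ρ₁) (hl₂ : IsLiftOf ρbar c₂ ρ₂)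
    (hf₁ : ρ₁.IsFlatAt p) (hf₂ : ρ₂.IsFlatAt p) (σ : GQ)
    (hσ : ∀ b ∈ levelSet ρbar c₁ c₂ P, σ b = b) :
    ρbar.ρ σ = 1 ∧ c₁ σ = 0 ∧ c₂ σ = 0 := by
  haveI : Finite (DualNumber k) := inferInstanceAs (Finite (k × k))
  obtain ⟨H₁, i1, i2, hfin1, -, -, ⟨X₁⟩⟩ := exists_pointModel_of_isFlatAt ρ₁ p hf₁
  obtain ⟨H₂, j1, j2, hfin2, -, -, ⟨X₂⟩⟩ := exists_pointModel_of_isFlatAt ρ₂ p hf₂
  have h1 := (fixes_points_iff_of_isLiftOf ρbar hl₁ X₁ σ).mp (fun f h =>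
    hσ _ ⟨point_mem_P M f h, fun τ _ e1 e2 _ =>
      (fixes_points_iff_of_isLiftOf ρbar hl₁ X₁ τ).mpr ⟨e1, e2⟩ f h⟩)
  have h2 := (fixes_points_iff_of_isLiftOf ρbar hl₂ X₂ σ).mp (fun f h =>
    hσ _ ⟨point_mem_P M f h, fun τ _ e1 _ e3 =>
      (fixes_points_iff_of_isLiftOf ρbar hl₂ X₂ τ).mpr ⟨e1, e3⟩ f h⟩)
  exact ⟨h1.1, h1.2, h2.2⟩

end Points

section Zeta

variable (p : ℕ) [Fact p.Prime]

lemma exists_primitiveRoot_Qb : ∃ ζ₀ : Qb, IsPrimitiveRoot ζ₀ p := by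
  haveI : NeZero ((p : ℕ) : Qb) := ⟨p_ne_zero_Qb⟩
  exact HasEnoughRootsOfUnity.exists_primitiveRoot Qb p

variable {p}

lemma isCycExp_of_apply_eq {ζ₀ : Qb} (hζ : IsPrimitiveRoot ζ₀ p) {σ : GQ} {a : ℕ}
    (h : σ ζ₀ = ζ₀ ^ a) : IsCycExp p σ a := by
  haveI : NeZero p := ⟨(Fact.out : p.Prime).ne_zero⟩
  intro μ hμ
  obtain ⟨j, -, rfl⟩ := hζ.eq_pow_of_pow_eq_one hμ
  rw [map_pow, h, ← pow_mul, ← pow_mul, mul_comm]

lemma exists_cycExp {ζ₀ : Qb} (hζ : IsPrimitiveRoot ζ₀ p) (σ : GQ) : ∃ a : ℕ, σ ζ₀ = ζ₀ ^ a := by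
  haveI : NeZero p := ⟨(Fact.out : p.Prime).ne_zero⟩
  have h : (σ ζ₀) ^ p = 1 := by rw [← map_pow, hζ.pow_eq_one, map_one]
  obtain ⟨a, -, ha⟩ := hζ.eq_pow_of_pow_eq_one h
  exact ⟨a, ha.symm⟩

/-- `ρ̄ σ = 1 ⇒ σ ζ_p = ζ_p`, by the determinant condition. -/
lemma apply_primitiveRoot_of_rho_eq_one {k : Type} [Field k] [CharP k p]
    {ρbar : ResidualGaloisRep k}
    (hdet : ∀ (σ : GQ) (a : ℕ), IsCycExp p σ a → LinearMap.det (ρbar.ρ σ) = (a : k))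
    {ζ₀ : Qb} (hζ : IsPrimitiveRoot ζ₀ p) {σ : GQ} (h1 : ρbar.ρ σ = 1) : σ ζ₀ = ζ₀ := by
  obtain ⟨a, ha⟩ := exists_cycExp hζ σ
  have hc := hdet σ a (isCycExp_of_apply_eq hζ ha)
  rw [h1, map_one] at hc
  have h2 : ((a : ℕ) : k) = ((1 : ℕ) : k) := by
    rw [Nat.cast_one]
    exact hc.symm
  rw [CharP.natCast_eq_natCast k p] at h2
  rw [ha]
  have h3 : ζ₀ ^ a = ζ₀ ^ 1 := pow_eq_pow_of_modEq h2 hζ.pow_eq_one
  rw [h3, pow_one]

lemma primitiveRoot_mem_P {P : ValuationSubring Qb} (M : LocalModel p P) {ζ₀ : Qb}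
    (hζ : IsPrimitiveRoot ζ₀ p) : ζ₀ ∈ P := by
  rw [M.mem_iff_ν]
  have h : M.ν ζ₀ ^ p = 1 := by rw [← M.ν_pow, hζ.pow_eq_one, M.ν_one]
  have hp : p ≠ 0 := (Fact.out : p.Prime).ne_zero
  exact ((pow_eq_one_iff_of_nonneg (M.ν_nonneg ζ₀) hp).mp h).le

end Zeta

section Main

/-- **INT**: the frozen `FL.IntStatement`. -/
theorem intStatement : Fermat.Agent.S56.FL.IntStatement := by
  intro k _ _ p _ hp2 hchar ρbar hdet P hP c₁ c₂ hc₁ hc₂ ρ₁ ρ₂ hl₁ hl₂ hf₁ hf₂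
  haveI := hchar
  obtain ⟨M⟩ := exists_localModel p hP
  obtain ⟨ϖ, e, hV, hpe⟩ := exists_valData_intB M hc₁ hc₂
  obtain ⟨ζ₀, hζ₀⟩ := exists_primitiveRoot_Qb p
  haveI dvrA : IsDiscreteValuationRing (intA P) := isDiscreteValuationRing_intA M
  haveI dvrB : IsDiscreteValuationRing (intB ρbar c₁ c₂ P) := hV.isDiscreteValuationRing
  letI algAB : Algebra (intA P) (intB ρbar c₁ c₂ P) :=
    (Subring.inclusion (intA_le_intB P)).toAlgebra
  haveI finΓ : Finite (intΓ P hc₁ hc₂) := finite_intΓ P hc₁ hc₂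
  letI actΓ : MulSemiringAction (intΓ P hc₁ hc₂) (intB ρbar c₁ c₂ P) :=
    MulSemiringAction.compHom _ (intActQ P hc₁ hc₂)
  -- the action, concretely
  have hact : ∀ (σ : P.decompositionSubgroup ℚ) (b : intB ρbar c₁ c₂ P),
      (((QuotientGroup.mk' (intKer P hc₁ hc₂) σ) • b : intB ρbar c₁ c₂ P) : Qb) =
        (σ : GQ) (b : Qb) := fun σ b => rfl
  haveI faithAB : FaithfulSMul (intA P) (intB ρbar c₁ c₂ P) := by
    rw [faithfulSMul_iff_algebraMap_injective]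
    exact Subring.inclusion_injective (intA_le_intB P)
  haveI commΓ : SMulCommClass (intΓ P hc₁ hc₂) (intA P) (intB ρbar c₁ c₂ P) := by
    refine ⟨fun γ a b => ?_⟩
    obtain ⟨σ, rfl⟩ := QuotientGroup.mk'_surjective (intKer P hc₁ hc₂) γ
    apply Subtype.ext
    rw [hact]
    show (σ : GQ) ((a : Qb) * (b : Qb)) = (a : Qb) * (σ : GQ) (b : Qb)
    rw [map_mul, a.2.2 σ σ.2]
  haveI invΓ : Algebra.IsInvariant (intA P) (intB ρbar c₁ c₂ P) (intΓ P hc₁ hc₂) := by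
    refine ⟨fun b hb => ?_⟩
    refine ⟨⟨(b : Qb), b.2.1, fun σ hσ => ?_⟩, Subtype.ext rfl⟩
    have h := congrArg Subtype.val (hb (QuotientGroup.mk' (intKer P hc₁ hc₂) ⟨σ, hσ⟩))
    exact h
  have hker : ∀ σ : P.decompositionSubgroup ℚ,
      (∀ b : intB ρbar c₁ c₂ P, (σ : GQ) (b : Qb) = (b : Qb)) → σ ∈ intKer P hc₁ hc₂ := by
    intro σ hσ
    exact mem_intKer_of_fixes M hl₁ hl₂ hf₁ hf₂ (σ : GQ) (fun b hb => hσ ⟨b, hb⟩)
  haveI faithΓ : FaithfulSMul (intΓ P hc₁ hc₂) (intB ρbar c₁ c₂ P) := by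
    refine ⟨fun {γ₁ γ₂} h => ?_⟩
    obtain ⟨σ₁, rfl⟩ := QuotientGroup.mk'_surjective (intKer P hc₁ hc₂) γ₁
    obtain ⟨σ₂, rfl⟩ := QuotientGroup.mk'_surjective (intKer P hc₁ hc₂) γ₂
    rw [QuotientGroup.mk'_apply, QuotientGroup.mk'_apply, QuotientGroup.eq]
    apply hker
    intro b
    have h1 := congrArg Subtype.val (h b)
    rw [hact, hact] at h1
    show (σ₁ : GQ)⁻¹ ((σ₂ : GQ) (b : Qb)) = (b : Qb)
    rw [← h1, inv_apply_self]
  haveI galΓ : IsGaloisGroup (intΓ P hc₁ hc₂) (intA P) (intB ρbar c₁ c₂ P) :=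
    ⟨faithΓ, commΓ, invΓ⟩
  haveI finAB : Module.Finite (intA P) (intB ρbar c₁ c₂ P) :=
    moduleFinite_of_isGaloisGroup (intΓ P hc₁ hc₂) (intA P) (intB ρbar c₁ c₂ P)
  -- the root of unity
  have hζB : ζ₀ ∈ intB ρbar c₁ c₂ P :=
    ⟨primitiveRoot_mem_P M hζ₀, fun σ _ h1 _ _ => apply_primitiveRoot_of_rho_eq_one hdet hζ₀ h1⟩
  refine ⟨intA P, intB ρbar c₁ c₂ P, inferInstance, inferInstance, dvrA, inferInstance,
    inferInstance, dvrB, inferInstance, algAB, finAB, faithAB, intΓ P hc₁ hc₂, inferInstance,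
    finΓ, actΓ, commΓ, invΓ, faithΓ, QuotientGroup.mk' (intKer P hc₁ hc₂), ⟨ζ₀, hζB⟩, e,
    (intB ρbar c₁ c₂ P).subtype, ?_, ?_, ?_, ?_, ?_, ?_, ?_, ?_, ?_, ?_⟩
  · exact QuotientGroup.mk'_surjective _
  · intro σ
    rw [QuotientGroup.mk'_apply, QuotientGroup.eq_one_iff]
    exact mem_intKer P
  · exact maximalIdeal_intA M
  · exact card_residueField_intA M
  · exact IsPrimitiveRoot.of_map_of_injective (f := (intB ρbar c₁ c₂ P).subtype)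
      hζ₀ (Subring.subtype_injective _)
  · intro σ a h
    have h1 := congrArg Subtype.val h
    rw [hact] at h1
    exact isCycExp_of_apply_eq hζ₀ h1
  · exact hV.span_eq_maximalIdeal_pow (natCast_mem_intB p) hpe
  · exact Subring.subtype_injective _
  · ext x
    constructor
    · rintro ⟨b, rfl⟩
      exact b.2
    · intro hx
      exact ⟨⟨x, hx⟩, rfl⟩
  · intro σ b
    rfl

end Main

example : Fermat.Agent.S56.FL.IntStatement := intStatement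

end Fermat.Agent.S56.H914

end
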