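import Fermat.Agent.S56.H716.SBGlue

/-!
# Row S56 — W-FLAT-SS, piece FL-BR (helper914), part 1: cocycle side (Prelude language)

Blueprint: `coord/S56-FLATSS-helper426.md` (origin/helper426), pieces (IR) and the map
`W = Gal(L/F₀) → (ad⁰V)²`.

* `adCocycle_one`, `adCocycle_mul_of_ker`, `adCocycle_inv_of_ker`, `adCocycle_conj_of_ker`:
  an ad⁰-cocycle restricted to `ker ρ̄` is an additive homomorphism, equivariant for conjugation.
* `adCocycle_eq_of_rho_eq`: a cocycle vanishing on `D ∩ ker ρ̄` factors through `ρ̄(D)`.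
* `isAdCoboundaryOn_of_vanish_ker` (IR): if moreover `#ρ̄(D)` is invertible in `k`, the cocycle is a
  coboundary on `D`.
* `liftEnd_eq_one_iff`: `(1 + ε c(σ)) ρ̄(σ) = 1 ↔ ρ̄(σ) = 1 ∧ c(σ) = 0`.
* `rho_eq_one_iff_of_isLiftOf`: for a lift `ρ'` of `c`: `ρ'(σ) = 1 ↔ ρ̄(σ) = 1 ∧ c(σ) = 0`.
-/

set_option autoImplicit false

open Polynomial IsLocalRing
open scoped TensorProduct

noncomputable section

namespace Fermat.Agent.S56.H914

open Fermat.Agent.S56 Fermat.Agent.S56.H716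

section Basic

variable {k : Type} [Field k] (ρbar : ResidualGaloisRep k)

lemma rho_mul_inv (σ : GQ) : ρbar.ρ σ * ρbar.ρ σ⁻¹ = 1 := by
  rw [← map_mul, mul_inv_cancel, map_one]

lemma rho_inv_mul (σ : GQ) : ρbar.ρ σ⁻¹ * ρbar.ρ σ = 1 := by
  rw [← map_mul, inv_mul_cancel, map_one]

lemma rho_inv_eq_one {σ : GQ} (h : ρbar.ρ σ = 1) : ρbar.ρ σ⁻¹ = 1 := by
  have := rho_mul_inv ρbar σ
  rwa [h, one_mul] at this

variable {ρbar}

lemma adCocycle_one {c : GQ → Module.End k ρbar.V} (hc : IsAdCocycle ρbar c) : c 1 = 0 := by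
  have h := hc.map_mul 1 1
  rw [mul_one, map_one, inv_one, map_one, one_mul, mul_one] at h
  exact left_eq_add.mp h

lemma adCocycle_mul_of_ker {c : GQ → Module.End k ρbar.V} (hc : IsAdCocycle ρbar c)
    {σ : GQ} (hσ : ρbar.ρ σ = 1) (τ : GQ) : c (σ * τ) = c σ + c τ := by
  rw [hc.map_mul, hσ, rho_inv_eq_one ρbar hσ, one_mul, mul_one]

lemma adCocycle_inv_of_ker {c : GQ → Module.End k ρbar.V} (hc : IsAdCocycle ρbar c)
    {σ : GQ} (hσ : ρbar.ρ σ = 1) : c σ⁻¹ = - c σ := by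
  have h := adCocycle_mul_of_ker hc hσ σ⁻¹
  rw [mul_inv_cancel, adCocycle_one hc] at h
  exact eq_neg_of_add_eq_zero_right h.symm

/-- On `ker ρ̄` the cocycle is equivariant for conjugation. -/
lemma adCocycle_conj_of_ker {c : GQ → Module.End k ρbar.V} (hc : IsAdCocycle ρbar c)
    {σ : GQ} (hσ : ρbar.ρ σ = 1) (g : GQ) :
    c (g * σ * g⁻¹) = ρbar.ρ g * c σ * ρbar.ρ g⁻¹ := by
  have h1 : c (g * g⁻¹) = c g + ρbar.ρ g * c g⁻¹ * ρbar.ρ g⁻¹ := hc.map_mul g g⁻¹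
  rw [mul_inv_cancel, adCocycle_one hc] at h1
  have h2 : c (g * σ * g⁻¹) = c (g * σ) + ρbar.ρ (g * σ) * c g⁻¹ * ρbar.ρ (g * σ)⁻¹ :=
    hc.map_mul (g * σ) g⁻¹
  have h3 : ρbar.ρ (g * σ) = ρbar.ρ g := by rw [map_mul, hσ, mul_one]
  have h4 : ρbar.ρ (g * σ)⁻¹ = ρbar.ρ g⁻¹ := by
    rw [mul_inv_rev, map_mul, rho_inv_eq_one ρbar hσ, one_mul]
  rw [h2, h3, h4, hc.map_mul g σ]
  rw [add_assoc, add_comm (ρbar.ρ g * c σ * ρbar.ρ g⁻¹), ← add_assoc, ← h1, zero_add]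

/-- A cocycle vanishing on `D ∩ ker ρ̄` only depends on `ρ̄(σ)` for `σ ∈ D`. -/
lemma adCocycle_eq_of_rho_eq {c : GQ → Module.End k ρbar.V} (hc : IsAdCocycle ρbar c)
    (D : Subgroup GQ) (hvan : ∀ σ ∈ D, ρbar.ρ σ = 1 → c σ = 0)
    {σ τ : GQ} (hσ : σ ∈ D) (hτ : τ ∈ D) (h : ρbar.ρ σ = ρbar.ρ τ) : c σ = c τ := by
  have hmem : σ⁻¹ * τ ∈ D := D.mul_mem (D.inv_mem hσ) hτ
  have hker : ρbar.ρ (σ⁻¹ * τ) = 1 := by
    rw [map_mul, ← h, rho_inv_mul]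
  have h0 := hvan _ hmem hker
  have h1 := hc.map_mul σ (σ⁻¹ * τ)
  rw [mul_inv_cancel_left, h0, mul_zero, zero_mul, add_zero] at h1
  exact h1.symm

end Basic

section IR

variable {k : Type} [Field k] {ρbar : ResidualGaloisRep k}

/-- **(IR)** A cocycle vanishing on `D ∩ ker ρ̄` is a coboundary on `D`, as soon as the order of
the finite group `ρ̄(D)` is invertible in `k` (averaging). -/
theorem isAdCoboundaryOn_of_vanish_ker {c : GQ → Module.End k ρbar.V} (hc : IsAdCocycle ρbar c)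
    (D : Subgroup GQ) (hfin : (ρbar.ρ '' (D : Set GQ)).Finite)
    (hn : ((hfin.toFinset.card : ℕ) : k) ≠ 0)
    (hvan : ∀ σ ∈ D, ρbar.ρ σ = 1 → c σ = 0) : IsAdCoboundaryOn ρbar D c := by
  classical
  set s : Finset (Module.End k ρbar.V) := hfin.toFinset with hs
  have hmem : ∀ δ, δ ∈ s ↔ ∃ σ ∈ D, ρbar.ρ σ = δ := by
    intro δ
    rw [hs, Set.Finite.mem_toFinset]
    exact Iff.rfl
  -- the cocycle as a function on the image
  let ct : Module.End k ρbar.V → Module.End k ρbar.V := fun δ =>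
    if h : ∃ σ ∈ D, ρbar.ρ σ = δ then c h.choose else 0
  have hct : ∀ σ ∈ D, ct (ρbar.ρ σ) = c σ := by
    intro σ hσ
    have h : ∃ τ ∈ D, ρbar.ρ τ = ρbar.ρ σ := ⟨σ, hσ, rfl⟩
    show (if h : ∃ τ ∈ D, ρbar.ρ τ = ρbar.ρ σ then c h.choose else 0) = c σ
    rw [dif_pos h]
    exact adCocycle_eq_of_rho_eq hc D hvan h.choose_spec.1 hσ h.choose_spec.2
  set S : Module.End k ρbar.V := ∑ δ ∈ s, ct δ with hS
  have key : ∀ σ ∈ D, S = (s.card : k) • c σ + ρbar.ρ σ * S * ρbar.ρ σ⁻¹ := by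
    intro σ hσ
    have h1 : ∑ δ ∈ s, ct (ρbar.ρ σ * δ) = S := by
      rw [hS]
      refine Finset.sum_bij' (fun δ _ => ρbar.ρ σ * δ) (fun δ _ => ρbar.ρ σ⁻¹ * δ) ?_ ?_ ?_ ?_ ?_
      · intro δ hδ
        obtain ⟨τ, hτ, rfl⟩ := (hmem δ).mp hδ
        exact (hmem _).mpr ⟨σ * τ, D.mul_mem hσ hτ, map_mul _ _ _⟩
      · intro δ hδ
        obtain ⟨τ, hτ, rfl⟩ := (hmem δ).mp hδ
        exact (hmem _).mpr ⟨σ⁻¹ * τ, D.mul_mem (D.inv_mem hσ) hτ, map_mul _ _ _⟩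
      · intro δ _
        rw [← mul_assoc, rho_inv_mul, one_mul]
      · intro δ _
        rw [← mul_assoc, rho_mul_inv, one_mul]
      · intro δ _
        rfl
    have h2 : ∀ δ ∈ s, ct (ρbar.ρ σ * δ) = c σ + ρbar.ρ σ * ct δ * ρbar.ρ σ⁻¹ := by
      intro δ hδ
      obtain ⟨τ, hτ, rfl⟩ := (hmem δ).mp hδ
      rw [← map_mul, hct _ (D.mul_mem hσ hτ), hct _ hτ, hc.map_mul]
    have h5 : ∑ δ ∈ s, ct (ρbar.ρ σ * δ) = (s.card : k) • c σ + ρbar.ρ σ * S * ρbar.ρ σ⁻¹ := by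
      rw [Finset.sum_congr rfl h2, Finset.sum_add_distrib, Finset.sum_const,
        ← Finset.sum_mul, ← Finset.mul_sum, Nat.cast_smul_eq_nsmul]
    rw [← h5, h1]
  refine ⟨-((s.card : k)⁻¹ • S), fun σ hσ => ?_⟩
  have h := key σ hσ
  have h3 : (s.card : k) • c σ = S - ρbar.ρ σ * S * ρbar.ρ σ⁻¹ := by
    rw [eq_sub_iff_add_eq]
    exact h.symm
  have h4 : c σ = (s.card : k)⁻¹ • (S - ρbar.ρ σ * S * ρbar.ρ σ⁻¹) := by
    rw [← h3, smul_smul, inv_mul_cancel₀ hn, one_smul]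
  rw [h4, mul_neg, neg_mul, mul_smul_comm, smul_mul_assoc, smul_sub]
  abel

end IR

section Lift

variable {k : Type} [Field k] (ρbar : ResidualGaloisRep k)

/-- If the lift `(1 + ε c(σ)) ρ̄(σ)` is the identity, then `ρ̄(σ) = 1`. -/
lemma rho_eq_one_of_liftEnd_eq_one {c : GQ → Module.End k ρbar.V} {σ : GQ}
    (h : liftEnd ρbar c σ = 1) : ρbar.ρ σ = 1 := by
  ext w
  have h1 := congrArg (fun f => f ((1 : DualNumber k) ⊗ₜ[k] w)) h
  simp only [liftEnd, LinearMap.add_apply, LinearMap.smul_apply, LinearMap.baseChange_tmul,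
    Module.End.one_apply, Module.End.mul_apply, TensorProduct.smul_tmul', smul_eq_mul,
    mul_one] at h1
  have h2 := congrArg (fun x => TensorProduct.lid k ρbar.V
    ((TrivSqZeroExt.fstHom k k k).toLinearMap.rTensor ρbar.V x)) h1
  simpa using h2

/-- `(1 + ε c(σ)) ρ̄(σ) = 1 ↔ ρ̄(σ) = 1 ∧ c(σ) = 0`. -/
theorem liftEnd_eq_one_iff {c : GQ → Module.End k ρbar.V} {σ : GQ} :
    liftEnd ρbar c σ = 1 ↔ ρbar.ρ σ = 1 ∧ c σ = 0 := by
  constructor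
  · intro h
    exact ⟨rho_eq_one_of_liftEnd_eq_one ρbar h, eq_zero_of_liftEnd_eq_one ρbar h⟩
  · rintro ⟨h1, h2⟩
    rw [liftEnd, h1, h2, zero_mul, LinearMap.baseChange_zero, LinearMap.baseChange_one]
    refine LinearMap.ext fun x => ?_
    rw [LinearMap.add_apply, LinearMap.smul_apply, LinearMap.zero_apply, smul_zero, add_zero]

/-- For a lift `ρ'` of `c`: `ρ'(σ) = 1 ↔ ρ̄(σ) = 1 ∧ c(σ) = 0`. -/
theorem rho_eq_one_iff_of_isLiftOf {c : GQ → Module.End k ρbar.V}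
    {ρ' : GaloisRepAdic (DualNumber k)} (hl : IsLiftOf ρbar c ρ') (σ : GQ) :
    ρ'.ρ σ = 1 ↔ ρbar.ρ σ = 1 ∧ c σ = 0 := by
  obtain ⟨e, he⟩ := hl
  rw [← liftEnd_eq_one_iff]
  constructor
  · intro h
    refine LinearMap.ext fun x => ?_
    obtain ⟨v, rfl⟩ := e.surjective x
    rw [← he σ v, h, Module.End.one_apply, Module.End.one_apply]
  · intro h
    refine LinearMap.ext fun v => ?_
    apply e.injective
    rw [he σ v, h, Module.End.one_apply, Module.End.one_apply]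

end Lift

end Fermat.Agent.S56.H914

end
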