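import Fermat.Agent.S56.H914.BRCocycle

/-!
# Row S56 — W-FLAT-SS, piece FL-BR (helper914), part 2: unpacking `IsFlatAt` at level `I = ⊥`

For a Galois representation `ρ'` over a FINITE local ring `A` (e.g. the dual numbers `k[ε]`, `k`
finite), the Prelude's `IsFlatAt p` gives at level `I = ⊥` a finite flat cocommutative Hopf algebra
`H` over `ℤ_(p)` whose group of `ℚ̄`-points is `ρ'.V` itself:

* `galAct p σ f` : the Galois action `f ↦ σ ∘ f` on points `H →ₐ[ℤ_(p)] ℚ̄`.
* `exists_pointModel_of_isFlatAt` : `∃ H, … ∃ e : WithConv (H →ₐ ℚ̄) ≃ ρ'.V`, additive, equivariant.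
* `PointModel` API: `e 1 = 0`, `e (f ^ n) = n • e f`, points killed by `p` when `p • V = 0`,
  `σ` fixes all points `↔ ρ'(σ) = 1`.
* `fixes_points_iff_of_isLiftOf` : for a lift `ρ'` of an ad⁰-cocycle `c` (layer-1 `IsLiftOf`):
  `σ` fixes all points of `H`  `↔  ρ̄(σ) = 1 ∧ c(σ) = 0`.
-/

set_option autoImplicit false

open Polynomial IsLocalRing
open scoped TensorProduct

noncomputable section

namespace Fermat.Agent.S56.H914

open Fermat.Agent.S56 Fermat.Agent.S56.H716

/-- `ℤ_(p)` as in the Prelude. -/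
abbrev Zp (p : ℕ) : Type := GaloisRep.ratLocalizedAt p

section Points

variable (p : ℕ) {H : Type} [CommRing H] [HopfAlgebra (Zp p) H]

/-- `σ ∈ G_ℚ` as a `ℤ_(p)`-algebra endomorphism of `ℚ̄`. -/
def galHom (σ : GQ) : Qb →ₐ[Zp p] Qb :=
  (σ : Qb →ₐ[ℚ] Qb).restrictScalars (Zp p)

@[simp] lemma galHom_apply (σ : GQ) (x : Qb) : galHom p σ x = σ x := rfl

/-- The Galois action on the points of `H`. -/
def galAct (σ : GQ) (f : WithConv (H →ₐ[Zp p] Qb)) : WithConv (H →ₐ[Zp p] Qb) :=
  WithConv.toConv ((galHom p σ).comp f.ofConv)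

@[simp] lemma galAct_apply (σ : GQ) (f : WithConv (H →ₐ[Zp p] Qb)) (h : H) :
    (galAct p σ f).ofConv h = σ (f.ofConv h) := rfl

lemma galAct_mul (σ : GQ) (f g : WithConv (H →ₐ[Zp p] Qb)) :
    galAct p σ (f * g) = galAct p σ f * galAct p σ g := by
  apply WithConv.ofConv_injective
  exact AlgHom.comp_convMul_distrib (galHom p σ) f g

lemma galAct_one_left (f : WithConv (H →ₐ[Zp p] Qb)) : galAct p 1 f = f := by
  apply WithConv.ofConv_injective
  ext h
  rfl

lemma galAct_galAct (σ τ : GQ) (f : WithConv (H →ₐ[Zp p] Qb)) :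
    galAct p σ (galAct p τ f) = galAct p (σ * τ) f := by
  apply WithConv.ofConv_injective
  ext h
  rfl

end Points

/-- The points of `H` form a model of the Galois module `V` (`= ρ'.V`): an additive, equivariant
bijection from the convolution monoid of `ℚ̄`-points of `H` onto `V`. -/
structure PointModel (p : ℕ) (H : Type) [CommRing H] [HopfAlgebra (Zp p) H]
    {A : Type} [CommRing A] {V : Type} [AddCommGroup V] [Module A V]
    (ρ : GQ →* Module.End A V) where
  e : WithConv (H →ₐ[Zp p] Qb) ≃ V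
  map_mul : ∀ f g, e (f * g) = e f + e g
  map_gal : ∀ σ f, e (galAct p σ f) = ρ σ (e f)

namespace PointModel

variable {p : ℕ} {H : Type} [CommRing H] [HopfAlgebra (Zp p) H]
  {A : Type} [CommRing A] {V : Type} [AddCommGroup V] [Module A V]
  {ρ : GQ →* Module.End A V}

lemma map_one (M : PointModel p H ρ) : M.e 1 = 0 := by
  have h := M.map_mul 1 1
  rw [mul_one] at h
  exact left_eq_add.mp h

lemma map_pow (M : PointModel p H ρ) (f : WithConv (H →ₐ[Zp p] Qb)) (n : ℕ) :
    M.e (f ^ n) = n • M.e f := by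
  induction n with
  | zero => rw [pow_zero, zero_smul, M.map_one]
  | succ n ih => rw [pow_succ, M.map_mul, ih, succ_nsmul]

/-- If `V` is killed by `n`, so is the group of points. -/
lemma pow_eq_one (M : PointModel p H ρ) {n : ℕ} (hn : ∀ v : V, n • v = 0)
    (f : WithConv (H →ₐ[Zp p] Qb)) : f ^ n = 1 := by
  apply M.e.injective
  rw [M.map_pow, hn, M.map_one]

/-- `σ` fixes all the points of `H` iff it acts trivially on `V`. -/
theorem fixes_iff (M : PointModel p H ρ) (σ : GQ) :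
    (∀ (f : H →ₐ[Zp p] Qb) (h : H), σ (f h) = f h) ↔ ρ σ = 1 := by
  constructor
  · intro hfix
    refine LinearMap.ext fun v => ?_
    obtain ⟨f, rfl⟩ := M.e.surjective v
    rw [← M.map_gal, Module.End.one_apply]
    congr 1
    apply WithConv.ofConv_injective
    ext h
    exact hfix f.ofConv h
  · intro hσ f h
    have h1 := M.map_gal σ (WithConv.toConv f)
    rw [hσ, Module.End.one_apply] at h1
    have h2 := M.e.injective h1
    have h3 := congrArg (fun g => g.ofConv h) h2
    exact h3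

theorem finite_points (M : PointModel p H ρ) [Finite V] : Finite (H →ₐ[Zp p] Qb) := by
  have : Finite (WithConv (H →ₐ[Zp p] Qb)) := Finite.of_equiv V M.e.symm
  exact Finite.of_equiv _ (WithConv.equiv _)

end PointModel

section Flat

variable {A : Type} [CommRing A] [IsLocalRing A]

/-- **Unpacking `IsFlatAt` at level `I = ⊥`** (finite coefficient ring). -/
theorem exists_pointModel_of_isFlatAt [Finite A] (ρ' : GaloisRepAdic A) (p : ℕ)
    (hflat : ρ'.IsFlatAt p) :
    ∃ (H : Type) (_ : CommRing H) (_ : HopfAlgebra (Zp p) H),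
      Module.Finite (Zp p) H ∧ Module.Flat (Zp p) H ∧ Coalgebra.IsCocomm (Zp p) H ∧
        Nonempty (PointModel p H ρ'.ρ) := by
  have hfin : Finite (A ⧸ (⊥ : Ideal A)) :=
    Finite.of_surjective (Ideal.Quotient.mk (⊥ : Ideal A)) Ideal.Quotient.mk_surjective
  obtain ⟨H, i1, i2, hfinH, hflatH, hco, e, he1, he2⟩ := hflat.2 ⊥ hfin
  refine ⟨H, i1, i2, hfinH, hflatH, hco, ⟨?_⟩⟩
  have hbot : (⊥ : Ideal A) • (⊤ : Submodule A ρ'.V) = ⊥ := Submodule.bot_smul _
  let q : (ρ'.V ⧸ ((⊥ : Ideal A) • (⊤ : Submodule A ρ'.V))) ≃ₗ[A] ρ'.V :=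
    Submodule.quotEquivOfEqBot _ hbot
  have hq : ∀ (σ : GQ) (x : ρ'.V ⧸ ((⊥ : Ideal A) • (⊤ : Submodule A ρ'.V))),
      q (ρ'.levelAction ⊥ σ x) = ρ'.ρ σ (q x) := by
    intro σ x
    obtain ⟨v, rfl⟩ := Submodule.mkQ_surjective _ x
    rfl
  refine
    { e := e.trans q.toEquiv
      map_mul := fun f g => ?_
      map_gal := fun σ f => ?_ }
  · show q (e (f * g)) = q (e f) + q (e g)
    rw [he1, map_add]
  · show q (e (galAct p σ f)) = ρ'.ρ σ (q (e f))
    rw [he2 σ f (galAct p σ f) (fun h => rfl), hq]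

end Flat

section LiftFlat

variable {k : Type} [Field k] (ρbar : ResidualGaloisRep k)

/-- For a lift `ρ'` of the ad⁰-cocycle `c` with a point model `H`: `σ` fixes all points of `H`
iff `ρ̄(σ) = 1` and `c(σ) = 0`. -/
theorem fixes_points_iff_of_isLiftOf {c : GQ → Module.End k ρbar.V}
    {ρ' : GaloisRepAdic (DualNumber k)} (hl : IsLiftOf ρbar c ρ')
    {p : ℕ} {H : Type} [CommRing H] [HopfAlgebra (Zp p) H] (M : PointModel p H ρ'.ρ) (σ : GQ) :
    (∀ (f : H →ₐ[Zp p] Qb) (h : H), σ (f h) = f h) ↔ ρbar.ρ σ = 1 ∧ c σ = 0 := by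
  rw [M.fixes_iff, rho_eq_one_iff_of_isLiftOf ρbar hl]

/-- The points of a flat lift to the dual numbers over a field of characteristic `p` are killed
by `p`. -/
theorem points_pow_eq_one {ρ' : GaloisRepAdic (DualNumber k)}
    {p : ℕ} [CharP k p] {H : Type} [CommRing H] [HopfAlgebra (Zp p) H]
    (M : PointModel p H ρ'.ρ) (f : WithConv (H →ₐ[Zp p] Qb)) : f ^ p = 1 := by
  refine M.pow_eq_one (fun v => ?_) f
  have h1 : ((p : ℕ) : DualNumber k) = 0 := by
    have : ((p : ℕ) : DualNumber k) = algebraMap k (DualNumber k) ((p : ℕ) : k) := by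
      rw [map_natCast]
    rw [this, CharP.cast_eq_zero, map_zero]
  rw [← Nat.cast_smul_eq_nsmul (DualNumber k), h1, zero_smul]

end LiftFlat

end Fermat.Agent.S56.H914

end
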