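import Fermat.Agent.S55.BLocal.Prime
import Fermat.Agent.S55.Bridge.InertiaConj
import Fermat.Agent.S55.Bridge.Krasner
import Fermat.Agent.Lib.Cheb.H476.FrobConj

/-!
# Row S56 — W-FLAT-SS, piece FL-BR (helper914), part 3: the local model of a place `P | p`

For ANY valuation subring `P` of `ℚ̄` over the prime `p` we produce a *local model*:

* an embedding `ι : ℚ̄ →ₐ[ℚ] ℚ̄_p` (`ℚ̄_p = PadicAlgCl p`) with `x ∈ P ↔ ‖ι x‖ ≤ 1`;
* an injective homomorphism `Ψ : Gal(ℚ̄_p/ℚ_p) →* G_ℚ` with range the decomposition group `D_P`,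
  such that `ι (Ψ τ x) = τ (ι x)`;
* `Ψ τ ∈ I_P` (Prelude inertia) iff `τ` acts trivially on the residue field of `ℚ̄_p`
  (`‖τ y − y‖ < 1` for `‖y‖ ≤ 1`);
* `ι(ℚ̄)` is dense in `ℚ̄_p` and contains every root of a nonzero rational polynomial.

Built from the Prelude's `padicEmbedding`, `padicPlace`, `localGaloisToGlobal`, the landed S55 bridge
(`range_localGaloisToGlobal`, Krasner) and transitivity of `G_ℚ` on the places over `p`
(`Lib.Cheb.H476.exists_smul_eq`).
-/

set_option autoImplicit false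
set_option linter.style.haveILetI false

open scoped Pointwise NNReal

noncomputable section

namespace Fermat.Agent.S56.H914

/-- `ℚ̄`. -/
abbrev QbL : Type := AlgebraicClosure ℚ

/-- `Gal(ℚ̄/ℚ)`. -/
abbrev GQL : Type := AlgebraicClosure ℚ ≃ₐ[ℚ] AlgebraicClosure ℚ

/-- The local Galois group `Gal(ℚ̄_p/ℚ_p)`. -/
abbrev GQp (p : ℕ) [Fact p.Prime] : Type := PadicAlgCl p ≃ₐ[ℚ_[p]] PadicAlgCl p

/-- A local model of the place `P` over `p`. -/
structure LocalModel (p : ℕ) [Fact p.Prime] (P : ValuationSubring QbL) where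
  /-- the embedding `ℚ̄ → ℚ̄_p` -/
  ι : QbL →ₐ[ℚ] PadicAlgCl p
  /-- the local Galois group as the decomposition group -/
  Ψ : GQp p →* GQL
  Ψ_injective : Function.Injective Ψ
  range_Ψ : Ψ.range = P.decompositionSubgroup ℚ
  ι_Ψ : ∀ (τ : GQp p) (x : QbL), ι (Ψ τ x) = τ (ι x)
  mem_iff : ∀ x : QbL, x ∈ P ↔ ‖ι x‖ ≤ 1
  dense : ∀ (y : PadicAlgCl p) {δ : ℝ}, 0 < δ → ∃ b : QbL, ‖y - ι b‖ < δ
  root_mem : ∀ (g : Polynomial ℚ), g ≠ 0 → ∀ y : PadicAlgCl p, Polynomial.aeval y g = 0 →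
    ∃ b : QbL, ι b = y

namespace LocalModel

variable {p : ℕ} [Fact p.Prime] {P : ValuationSubring QbL}

lemma ι_injective (M : LocalModel p P) : Function.Injective M.ι := M.ι.toRingHom.injective

lemma Ψ_mem (M : LocalModel p P) (τ : GQp p) : M.Ψ τ ∈ P.decompositionSubgroup ℚ := by
  rw [← M.range_Ψ]
  exact ⟨τ, rfl⟩

lemma exists_Ψ_eq (M : LocalModel p P) {σ : GQL} (hσ : σ ∈ P.decompositionSubgroup ℚ) :
    ∃ τ : GQp p, M.Ψ τ = σ := by
  rw [← M.range_Ψ] at hσ
  exact hσ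

lemma norm_τ (τ : GQp p) (y : PadicAlgCl p) : ‖τ y‖ = ‖y‖ := by
  have h := nnnorm_padicAlgCl_algEquiv p τ y
  exact congrArg NNReal.toReal h

lemma mem_nonunits_iff (M : LocalModel p P) (x : QbL) : x ∈ P.nonunits ↔ ‖M.ι x‖ < 1 := by
  rw [Fermat.Agent.S55.Bridge.mem_nonunits_iff_inv_not_mem]
  rcases eq_or_ne x 0 with rfl | hx
  · simp
  · simp only [hx, false_or]
    rw [M.mem_iff, map_inv₀, norm_inv, not_le]
    have hpos : 0 < ‖M.ι x‖ := by
      rw [norm_pos_iff]
      exact (map_ne_zero_iff _ M.ι_injective).mpr hx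
    rw [one_lt_inv₀ hpos]

/-- Inertia on the global side = inertia on the local side. -/
theorem Ψ_mem_inertia_iff (M : LocalModel p P) (τ : GQp p) :
    M.Ψ τ ∈ P.inertiaSubgroupIn ℚ ↔ ∀ y : PadicAlgCl p, ‖y‖ ≤ 1 → ‖τ y - y‖ < 1 := by
  rw [Fermat.Agent.S55.Bridge.mem_inertiaSubgroupIn_iff]
  constructor
  · rintro ⟨-, h⟩ y hy
    obtain ⟨b, hb⟩ := M.dense y (δ := 1) one_pos
    have hb1 : ‖M.ι b‖ ≤ 1 := by
      have h1 : M.ι b = y - (y - M.ι b) := by ring
      rw [h1, sub_eq_add_neg]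
      refine le_trans (PadicAlgCl.isNonarchimedean p y (-(y - M.ι b))) ?_
      rw [norm_neg]
      exact max_le hy hb.le
    have h2 := h b ((M.mem_iff b).mpr hb1)
    rw [M.mem_nonunits_iff, map_sub, M.ι_Ψ] at h2
    have h3 : τ y - y = (τ (y - M.ι b) + -(y - M.ι b)) + (τ (M.ι b) - M.ι b) := by
      rw [map_sub]
      ring
    rw [h3]
    refine lt_of_le_of_lt (PadicAlgCl.isNonarchimedean p _ _) (max_lt ?_ h2)
    refine lt_of_le_of_lt (PadicAlgCl.isNonarchimedean p _ _) (max_lt ?_ ?_)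
    · rw [norm_τ]
      exact hb
    · rw [norm_neg]
      exact hb
  · intro h
    refine ⟨M.Ψ_mem τ, fun z hz => ?_⟩
    rw [M.mem_nonunits_iff, map_sub, M.ι_Ψ]
    exact h _ ((M.mem_iff z).mp hz)

end LocalModel

section Exists

variable (p : ℕ) [Fact p.Prime]

/-- The standard local model of the standard place `padicPlace p`, conjugated by `g`. -/
def conjLocalModel (g : GQL) : LocalModel p (g • padicPlace p) where
  ι := (padicEmbedding p).comp ((g⁻¹ : GQL) : QbL →ₐ[ℚ] QbL)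
  Ψ := (MulAut.conj g).toMonoidHom.comp (localGaloisToGlobal p)
  Ψ_injective := by
    intro τ τ' h
    apply Fermat.Agent.S55.Bridge.localGaloisToGlobal_injective p
    exact (MulAut.conj g).injective h
  range_Ψ := by
    rw [MonoidHom.range_comp, Fermat.Agent.S55.BLocal.range_localGaloisToGlobal]
    ext σ
    rw [Subgroup.mem_map, Fermat.Agent.S55.Bridge.mem_decompositionSubgroup_iff]
    constructor
    · rintro ⟨σ₀, hσ₀, rfl⟩ x
      rw [Fermat.Agent.S55.Bridge.mem_decompositionSubgroup_iff] at hσ₀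
      rw [Fermat.Agent.S55.Bridge.mem_smul_valuationSubring_iff,
        Fermat.Agent.S55.Bridge.mem_smul_valuationSubring_iff]
      show g⁻¹ ((g * σ₀ * g⁻¹) x) ∈ padicPlace p ↔ _
      rw [Fermat.Agent.S55.Bridge.apply_inv_conj, hσ₀]
    · intro h
      refine ⟨g⁻¹ * σ * g, ?_, ?_⟩
      · rw [Fermat.Agent.S55.Bridge.mem_decompositionSubgroup_iff]
        intro x
        have h1 := h (g x)
        rw [Fermat.Agent.S55.Bridge.mem_smul_valuationSubring_iff,
          Fermat.Agent.S55.Bridge.mem_smul_valuationSubring_iff] at h1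
        have h2 : g⁻¹ (g x) = x := by
          show (g⁻¹ * g) x = x
          rw [inv_mul_cancel]
          rfl
        rw [h2] at h1
        exact h1
      · show g * (g⁻¹ * σ * g) * g⁻¹ = σ
        group
  ι_Ψ := by
    intro τ x
    show padicEmbedding p (g⁻¹ ((g * localGaloisToGlobal p τ * g⁻¹) x)) = _
    rw [Fermat.Agent.S55.Bridge.apply_inv_conj, padicEmbedding_localGaloisToGlobal]
    rfl
  mem_iff := by
    intro x
    rw [Fermat.Agent.S55.Bridge.mem_smul_valuationSubring_iff,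
      Fermat.Agent.S55.BLocal.mem_padicPlace_iff_qnorm]
    rfl
  dense := by
    intro y δ hδ
    obtain ⟨b, hb⟩ := Fermat.Agent.S55.Bridge.exists_global_near p y hδ
    refine ⟨g b, ?_⟩
    show ‖y - padicEmbedding p (g⁻¹ (g b))‖ < δ
    have h2 : g⁻¹ (g b) = b := by
      show (g⁻¹ * g) b = b
      rw [inv_mul_cancel]
      rfl
    rw [h2]
    exact hb
  root_mem := by
    intro f hf y hy
    obtain ⟨b, hb⟩ := Fermat.Agent.S55.Bridge.mem_range_padicEmbedding_of_root p f hf y hy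
    refine ⟨g b, ?_⟩
    show padicEmbedding p (g⁻¹ (g b)) = y
    have h2 : g⁻¹ (g b) = b := by
      show (g⁻¹ * g) b = b
      rw [inv_mul_cancel]
      rfl
    rw [h2]
    exact hb

/-- **Every place over `p` has a local model.** -/
theorem exists_localModel {P : ValuationSubring QbL} (hP : P.LiesOverPrime p) :
    Nonempty (LocalModel p P) := by
  have hp : p.Prime := Fact.out
  have h0 : (padicPlace p).LiesOverPrime p :=
    Fermat.Agent.S55.BLocal.primeLocalPlace_liesOver ⟨p, hp⟩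
  obtain ⟨g, hg⟩ := Fermat.Agent.Lib.Cheb.H476.exists_smul_eq hp h0 hP
  rw [← hg]
  exact ⟨conjLocalModel p g⟩

end Exists

end Fermat.Agent.S56.H914

end
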