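import Fermat.Agent.S56.H914.BRLocal
import Fermat.Agent.S56.H914.BRFlat

/-!
# Row S56 — W-FLAT-SS, piece FL-BR (helper914), part 4: points on the local side

`H` a commutative Hopf algebra over `ℤ_(p)`, finite as a module.

* `norm_algebraMap_Zp_le_one`, `norm_le_one_of_isIntegral_Zp` : elements of `ℚ̄_p` integral over
  `ℤ_(p)` have norm `≤ 1`.
* `norm_point_le_one` : every `ℚ̄_p`-point of `H` has integral coordinates.
* `locGalAct p τ f` : the action `f ↦ τ ∘ f` of `Gal(ℚ̄_p/ℚ_p)` on the `ℚ̄_p`-points.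
* `pointsToLocal M` : `(H →ₐ ℚ̄) ≃ (H →ₐ ℚ̄_p)`, `f ↦ ι ∘ f`, for a local model `M`; it is
  multiplicative for convolution and intertwines `galAct (Ψ τ)` with `locGalAct τ`.
* `LocalPointModel`, `PointModel.toLocal` : the local version of the point model of `BRFlat`:
  `e : WithConv (H →ₐ ℚ̄_p) ≃ V`, additive, `e (τ ∘ f) = ρ (Ψ τ) (e f)`.
-/

set_option autoImplicit false
set_option linter.style.haveILetI false

open scoped Pointwise NNReal

noncomputable section

namespace Fermat.Agent.S56.H914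

open Fermat.Agent.S56

section Integral

variable (p : ℕ) [Fact p.Prime]

lemma algebraMap_Zp_eq (a : Zp p) :
    algebraMap (Zp p) (PadicAlgCl p) a = algebraMap ℚ_[p] (PadicAlgCl p) (((a : ℚ) : ℚ_[p])) := by
  rw [IsScalarTower.algebraMap_apply (Zp p) ℚ_[p] (PadicAlgCl p)]
  have h : algebraMap (Zp p) ℚ_[p] a = ((a : ℚ) : ℚ_[p]) := by
    show algebraMap ℚ ℚ_[p] (a : ℚ) = _
    exact eq_ratCast _ _
  rw [h]

lemma norm_algebraMap_Zp_le_one (a : Zp p) : ‖algebraMap (Zp p) (PadicAlgCl p) a‖ ≤ 1 := by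
  rw [algebraMap_Zp_eq, PadicAlgCl.norm_extends]
  apply Padic.norm_rat_le_one
  intro hdvd
  have hcop : (a : ℚ).den.Coprime p := a.2
  have hp : p.Prime := Fact.out
  have h1 : p ∣ Nat.gcd (a : ℚ).den p := Nat.dvd_gcd hdvd dvd_rfl
  rw [hcop] at h1
  exact hp.one_lt.ne' (Nat.dvd_one.mp h1)

/-- The structure map `ℤ_(p) → 𝒪_{ℚ̄_p}`. -/
def zpToIntegers : Zp p →+* padicIntegers p :=
  (algebraMap (Zp p) (PadicAlgCl p)).codRestrict (padicIntegers p).toSubring (fun a => by
    show algebraMap (Zp p) (PadicAlgCl p) a ∈ padicIntegers p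
    rw [mem_padicIntegers_iff, ← NNReal.coe_le_coe]
    exact norm_algebraMap_Zp_le_one p a)

/-- An element of `ℚ̄_p` integral over `ℤ_(p)` has norm `≤ 1`. -/
theorem norm_le_one_of_isIntegral_Zp {y : PadicAlgCl p} (hy : IsIntegral (Zp p) y) : ‖y‖ ≤ 1 := by
  letI : Algebra (Zp p) (padicIntegers p) := (zpToIntegers p).toAlgebra
  haveI : IsScalarTower (Zp p) (padicIntegers p) (PadicAlgCl p) :=
    IsScalarTower.of_algebraMap_eq (fun _ => rfl)
  have h1 : IsIntegral (padicIntegers p) y := hy.tower_top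
  obtain ⟨z, hz⟩ := (IsIntegrallyClosed.isIntegral_iff (R := padicIntegers p)
    (K := PadicAlgCl p)).mp h1
  have h2 : y ∈ padicIntegers p := by
    rw [← hz]
    exact z.2
  rw [mem_padicIntegers_iff, ← NNReal.coe_le_coe] at h2
  exact h2

variable {H : Type} [CommRing H] [Algebra (Zp p) H] [Module.Finite (Zp p) H]

/-- Points of a finite `ℤ_(p)`-algebra have integral coordinates. -/
theorem norm_point_le_one (f : H →ₐ[Zp p] PadicAlgCl p) (h : H) : ‖f h‖ ≤ 1 :=
  norm_le_one_of_isIntegral_Zp p ((IsIntegral.of_finite (Zp p) h).map f)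

/-- Coordinates of points are algebraic over `ℚ`: roots of a nonzero rational polynomial. -/
theorem exists_ratPoly_of_isIntegral_Zp {y : PadicAlgCl p} (hy : IsIntegral (Zp p) y) :
    ∃ g : Polynomial ℚ, g ≠ 0 ∧ Polynomial.aeval y g = 0 := by
  obtain ⟨q, hq, hq0⟩ := hy
  refine ⟨q.map (algebraMap (Zp p) ℚ), ?_, ?_⟩
  · exact (hq.map _).ne_zero
  · rw [Polynomial.aeval_def, Polynomial.eval₂_map, ← IsScalarTower.algebraMap_eq]
    exact hq0

end Integral

section LocalAction

variable (p : ℕ) [Fact p.Prime] {H : Type} [CommRing H] [HopfAlgebra (Zp p) H]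

/-- `τ ∈ Gal(ℚ̄_p/ℚ_p)` as a `ℤ_(p)`-algebra endomorphism of `ℚ̄_p`. -/
def locGalHom (τ : GQp p) : PadicAlgCl p →ₐ[Zp p] PadicAlgCl p :=
  (τ : PadicAlgCl p →ₐ[ℚ_[p]] PadicAlgCl p).restrictScalars (Zp p)

@[simp] lemma locGalHom_apply (τ : GQp p) (x : PadicAlgCl p) : locGalHom p τ x = τ x := rfl

/-- The action of the local Galois group on the `ℚ̄_p`-points of `H`. -/
def locGalAct (τ : GQp p) (f : WithConv (H →ₐ[Zp p] PadicAlgCl p)) :
    WithConv (H →ₐ[Zp p] PadicAlgCl p) :=
  WithConv.toConv ((locGalHom p τ).comp f.ofConv)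

@[simp] lemma locGalAct_apply (τ : GQp p) (f : WithConv (H →ₐ[Zp p] PadicAlgCl p)) (h : H) :
    (locGalAct p τ f).ofConv h = τ (f.ofConv h) := rfl

lemma locGalAct_mul (τ : GQp p) (f g : WithConv (H →ₐ[Zp p] PadicAlgCl p)) :
    locGalAct p τ (f * g) = locGalAct p τ f * locGalAct p τ g := by
  apply WithConv.ofConv_injective
  exact AlgHom.comp_convMul_distrib (locGalHom p τ) f g

lemma locGalAct_one_left (f : WithConv (H →ₐ[Zp p] PadicAlgCl p)) : locGalAct p 1 f = f := by
  apply WithConv.ofConv_injective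
  ext h
  rfl

lemma locGalAct_locGalAct (σ τ : GQp p) (f : WithConv (H →ₐ[Zp p] PadicAlgCl p)) :
    locGalAct p σ (locGalAct p τ f) = locGalAct p (σ * τ) f := by
  apply WithConv.ofConv_injective
  ext h
  rfl

end LocalAction

section Transfer

variable {p : ℕ} [Fact p.Prime] {P : ValuationSubring QbL} (M : LocalModel p P)
  {H : Type} [CommRing H] [HopfAlgebra (Zp p) H]

/-- `ι` as a `ℤ_(p)`-algebra homomorphism. -/
def LocalModel.ιZ : Qb →ₐ[Zp p] PadicAlgCl p := M.ι.restrictScalars (Zp p)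

@[simp] lemma LocalModel.ιZ_apply (x : Qb) : M.ιZ x = M.ι x := rfl

/-- `f ↦ ι ∘ f` on points. -/
def pointsToLocalFun (f : WithConv (H →ₐ[Zp p] Qb)) : WithConv (H →ₐ[Zp p] PadicAlgCl p) :=
  WithConv.toConv (M.ιZ.comp f.ofConv)

@[simp] lemma pointsToLocalFun_apply (f : WithConv (H →ₐ[Zp p] Qb)) (h : H) :
    (pointsToLocalFun M f).ofConv h = M.ι (f.ofConv h) := rfl

lemma pointsToLocalFun_mul (f g : WithConv (H →ₐ[Zp p] Qb)) :
    pointsToLocalFun M (f * g) = pointsToLocalFun M f * pointsToLocalFun M g := by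
  apply WithConv.ofConv_injective
  exact AlgHom.comp_convMul_distrib M.ιZ f g

lemma pointsToLocalFun_injective :
    Function.Injective (pointsToLocalFun M (H := H)) := by
  intro f g hfg
  apply WithConv.ofConv_injective
  ext h
  have h1 := congrArg (fun u => u.ofConv h) hfg
  exact M.ι_injective h1

lemma pointsToLocalFun_gal (τ : GQp p) (f : WithConv (H →ₐ[Zp p] Qb)) :
    pointsToLocalFun M (galAct p (M.Ψ τ) f) = locGalAct p τ (pointsToLocalFun M f) := by
  apply WithConv.ofConv_injective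
  ext h
  exact M.ι_Ψ τ (f.ofConv h)

variable [Module.Finite (Zp p) H]

lemma pointsToLocalFun_surjective :
    Function.Surjective (pointsToLocalFun M (H := H)) := by
  intro fh
  -- every coordinate lies in the range of `ι`
  have hr : ∀ h : H, fh.ofConv h ∈ M.ιZ.range := by
    intro h
    obtain ⟨g, hg, hg0⟩ := exists_ratPoly_of_isIntegral_Zp p
      ((IsIntegral.of_finite (Zp p) h).map fh.ofConv)
    obtain ⟨b, hb⟩ := M.root_mem g hg _ hg0
    exact ⟨b, hb⟩
  let e : Qb ≃ₐ[Zp p] M.ιZ.range := AlgEquiv.ofInjective M.ιZ M.ι_injective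
  let f : H →ₐ[Zp p] Qb := (e.symm : M.ιZ.range →ₐ[Zp p] Qb).comp
    (fh.ofConv.codRestrict M.ιZ.range hr)
  refine ⟨WithConv.toConv f, ?_⟩
  apply WithConv.ofConv_injective
  ext h
  show M.ιZ (e.symm (fh.ofConv.codRestrict M.ιZ.range hr h)) = fh.ofConv h
  have h1 : M.ιZ (e.symm (fh.ofConv.codRestrict M.ιZ.range hr h)) =
      ((e (e.symm (fh.ofConv.codRestrict M.ιZ.range hr h)) : M.ιZ.range) : PadicAlgCl p) := rfl
  rw [h1, AlgEquiv.apply_symm_apply]
  rfl

/-- The bijection between `ℚ̄`-points and `ℚ̄_p`-points. -/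
def pointsToLocal : WithConv (H →ₐ[Zp p] Qb) ≃ WithConv (H →ₐ[Zp p] PadicAlgCl p) :=
  Equiv.ofBijective (pointsToLocalFun M)
    ⟨pointsToLocalFun_injective M, pointsToLocalFun_surjective M⟩

@[simp] lemma pointsToLocal_apply (f : WithConv (H →ₐ[Zp p] Qb)) :
    pointsToLocal M f = pointsToLocalFun M f := rfl

end Transfer

/-- The local version of `PointModel`: the `ℚ̄_p`-points of `H` as a model of the
`Gal(ℚ̄_p/ℚ_p)`-module `V`. -/
structure LocalPointModel (p : ℕ) [Fact p.Prime] (H : Type) [CommRing H] [HopfAlgebra (Zp p) H]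
    {A : Type} [CommRing A] {V : Type} [AddCommGroup V] [Module A V]
    (ρ : GQp p →* Module.End A V) where
  e : WithConv (H →ₐ[Zp p] PadicAlgCl p) ≃ V
  map_mul : ∀ f g, e (f * g) = e f + e g
  map_gal : ∀ τ f, e (locGalAct p τ f) = ρ τ (e f)

/-- Transfer of a point model along a local model. -/
def PointModel.toLocal {p : ℕ} [Fact p.Prime] {P : ValuationSubring QbL} (M : LocalModel p P)
    {H : Type} [CommRing H] [HopfAlgebra (Zp p) H] [Module.Finite (Zp p) H]
    {A : Type} [CommRing A] {V : Type} [AddCommGroup V] [Module A V]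
    {ρ : GQ →* Module.End A V} (X : PointModel p H ρ) :
    LocalPointModel p H (ρ.comp M.Ψ) where
  e := (pointsToLocal M).symm.trans X.e
  map_mul := by
    intro f g
    obtain ⟨f', rfl⟩ := (pointsToLocal M).surjective f
    obtain ⟨g', rfl⟩ := (pointsToLocal M).surjective g
    show X.e ((pointsToLocal M).symm (pointsToLocal M f' * pointsToLocal M g')) =
      X.e ((pointsToLocal M).symm (pointsToLocal M f')) +
        X.e ((pointsToLocal M).symm (pointsToLocal M g'))
    rw [pointsToLocal_apply, pointsToLocal_apply, ← pointsToLocalFun_mul,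
      ← pointsToLocal_apply, ← pointsToLocal_apply M f', ← pointsToLocal_apply M g',
      Equiv.symm_apply_apply, Equiv.symm_apply_apply, Equiv.symm_apply_apply, X.map_mul]
  map_gal := by
    intro τ f
    obtain ⟨f', rfl⟩ := (pointsToLocal M).surjective f
    show X.e ((pointsToLocal M).symm (locGalAct p τ (pointsToLocal M f'))) =
      ρ (M.Ψ τ) (X.e ((pointsToLocal M).symm (pointsToLocal M f')))
    rw [pointsToLocal_apply, ← pointsToLocalFun_gal, ← pointsToLocal_apply,
      ← pointsToLocal_apply M f', Equiv.symm_apply_apply, Equiv.symm_apply_apply, X.map_gal]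

end Fermat.Agent.S56.H914

end
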