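import Fermat.Agent.S56.H914.IntDefs

/-!
# Row S56 — W-FLAT-SS, leaf INT (helper914), part 2: `A` and `B` are discrete valuation rings

`M : LocalModel p P`, `ν x = ‖M.ι x‖`.

* `valData_intA` : `ValData ν (intA P) p`  ⇒  `A` is a DVR with `𝔪_A = (p)`.
* `card_residueField_intA` : `#κ_A = p`.
* `exists_valData_intB` : `∃ ϖ, ValData ν (intB …) ϖ`  ⇒  `B` is a DVR, `(p) = 𝔪_B ^ e`.
-/

set_option autoImplicit false
set_option linter.style.haveILetI false

open Polynomial IsLocalRing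

noncomputable section

namespace Fermat.Agent.S56.H914

open Fermat.Agent.S56 Fermat.Agent.S56.H716 Fermat.Agent.S56.FL

section Nu

variable {p : ℕ} [Fact p.Prime] {P : ValuationSubring Qb} (M : LocalModel p P)

/-- The `p`-adic absolute value on `ℚ̄` attached to the local model. -/
def LocalModel.ν (x : Qb) : ℝ := ‖M.ι x‖

lemma LocalModel.ν_zero : M.ν 0 = 0 := by
  rw [LocalModel.ν, map_zero, norm_zero]

lemma LocalModel.ν_one : M.ν 1 = 1 := by
  rw [LocalModel.ν, map_one, norm_one]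

lemma LocalModel.ν_mul (x y : Qb) : M.ν (x * y) = M.ν x * M.ν y := by
  rw [LocalModel.ν, map_mul, norm_mul]
  rfl

lemma LocalModel.ν_pow (x : Qb) (n : ℕ) : M.ν (x ^ n) = M.ν x ^ n := by
  rw [LocalModel.ν, map_pow, norm_pow]
  rfl

lemma LocalModel.ν_inv (x : Qb) : M.ν x⁻¹ = (M.ν x)⁻¹ := by
  rw [LocalModel.ν, map_inv₀, norm_inv]
  rfl

lemma LocalModel.ν_div (x y : Qb) : M.ν (x / y) = M.ν x / M.ν y := by
  rw [LocalModel.ν, map_div₀, norm_div]
  rfl

lemma LocalModel.ν_nonneg (x : Qb) : 0 ≤ M.ν x := norm_nonneg _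

lemma LocalModel.ν_pos {x : Qb} (hx : x ≠ 0) : 0 < M.ν x := by
  rw [LocalModel.ν, norm_pos_iff]
  exact (map_ne_zero_iff _ M.ι_injective).mpr hx

lemma LocalModel.mem_iff_ν (x : Qb) : x ∈ P ↔ M.ν x ≤ 1 := M.mem_iff x

lemma LocalModel.ν_apply {σ : GQ} (hσ : σ ∈ P.decompositionSubgroup ℚ) (x : Qb) :
    M.ν (σ x) = M.ν x := by
  obtain ⟨τ, rfl⟩ := M.exists_Ψ_eq hσ
  rw [LocalModel.ν, M.ι_Ψ, LocalModel.norm_τ]
  rfl

lemma LocalModel.ν_natCast_self : M.ν (p : Qb) = (p : ℝ)⁻¹ := by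
  rw [LocalModel.ν, map_natCast]
  have h : ((p : ℕ) : PadicAlgCl p) = algebraMap ℚ_[p] (PadicAlgCl p) (p : ℚ_[p]) := by
    rw [map_natCast]
  rw [h, PadicAlgCl.norm_extends, Padic.norm_p]

lemma LocalModel.p_inv_pos : (0 : ℝ) < (p : ℝ)⁻¹ := by
  have hp : (p : ℕ).Prime := Fact.out
  have : (0 : ℝ) < p := by exact_mod_cast hp.pos
  positivity

lemma LocalModel.p_inv_lt_one : ((p : ℝ)⁻¹) < 1 := by
  have hp : (p : ℕ).Prime := Fact.out
  have : (1 : ℝ) < p := by exact_mod_cast hp.one_lt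
  exact inv_lt_one_of_one_lt₀ this

/-- An algebraic number fixed by `D_P` is `p`-adically rational. -/
lemma LocalModel.ι_mem_range_of_fixed {x : Qb}
    (hx : ∀ σ ∈ P.decompositionSubgroup ℚ, σ x = x) :
    ∃ a : ℚ_[p], M.ι x = algebraMap ℚ_[p] (PadicAlgCl p) a := by
  haveI := Fermat.Agent.S55.BLocal.isGalois_padicAlgCl p
  have hfix : M.ι x ∈ IntermediateField.fixedField
      (⊤ : Subgroup (PadicAlgCl p ≃ₐ[ℚ_[p]] PadicAlgCl p)) := by
    rintro ⟨τ, -⟩
    show τ (M.ι x) = M.ι x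
    rw [← M.ι_Ψ, hx _ (M.Ψ_mem τ)]
  rw [InfiniteGalois.fixedField_bot, IntermediateField.mem_bot] at hfix
  obtain ⟨a, ha⟩ := hfix
  exact ⟨a, ha.symm⟩

/-- The value of a nonzero `D_P`-fixed integral element is `p⁻ⁿ`. -/
lemma LocalModel.ν_eq_pow_of_fixed {x : Qb} (hx0 : x ≠ 0) (hxP : x ∈ P)
    (hx : ∀ σ ∈ P.decompositionSubgroup ℚ, σ x = x) :
    ∃ n : ℕ, M.ν x = ((p : ℝ)⁻¹) ^ n := by
  obtain ⟨a, ha⟩ := M.ι_mem_range_of_fixed hx
  have ha0 : a ≠ 0 := by
    rintro rfl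
    rw [map_zero] at ha
    exact hx0 (M.ι_injective (by rw [ha, map_zero]))
  have hν : M.ν x = ‖a‖ := by
    rw [LocalModel.ν, ha, PadicAlgCl.norm_extends]
  have hle : ‖a‖ ≤ 1 := by
    rw [← hν]
    exact (M.mem_iff_ν x).mp hxP
  have hval : 0 ≤ a.valuation := (Padic.norm_le_one_iff_val_nonneg a).mp hle
  refine ⟨a.valuation.toNat, ?_⟩
  rw [hν, Padic.norm_eq_zpow_neg_valuation ha0, inv_pow, ← zpow_natCast, Int.toNat_of_nonneg hval,
    zpow_neg]

end Nu

section DVRA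

variable {p : ℕ} [Fact p.Prime] {P : ValuationSubring Qb}

lemma natCast_mem_intA (n : ℕ) : (n : Qb) ∈ intA P := natCast_mem (intA P) n

lemma p_ne_zero_Qb : (p : Qb) ≠ 0 := by
  have hp : (p : ℕ).Prime := Fact.out
  exact_mod_cast hp.ne_zero

/-- The valuation data of `A = P ∩ ℚ̄^{D_P}`, uniformizer `p`. -/
theorem valData_intA (M : LocalModel p P) : ValData M.ν (intA P) (p : Qb) where
  map_zero := M.ν_zero
  map_mul := M.ν_mul
  pos := fun x hx => M.ν_pos hx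
  le_one := fun x hx => (M.mem_iff_ν x).mp hx.1
  inv_mem := by
    rintro x ⟨hxP, hx⟩ h1
    refine ⟨(M.mem_iff_ν _).mpr ?_, fun σ hσ => ?_⟩
    · rw [M.ν_inv, h1, inv_one]
    · rw [map_inv₀, hx σ hσ]
  ϖ_mem := natCast_mem_intA p
  ϖ_ne := p_ne_zero_Qb
  ϖ_lt := by
    rw [M.ν_natCast_self]
    exact LocalModel.p_inv_lt_one
  factor := by
    rintro x ⟨hxP, hx⟩ hx0
    obtain ⟨n, hn⟩ := M.ν_eq_pow_of_fixed hx0 hxP hx
    have hpn : (p : Qb) ^ n ≠ 0 := pow_ne_zero _ p_ne_zero_Qb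
    have hu1 : M.ν (x / (p : Qb) ^ n) = 1 := by
      rw [M.ν_div, M.ν_pow, M.ν_natCast_self, hn]
      exact div_self (pow_pos LocalModel.p_inv_pos n).ne'
    refine ⟨n, x / (p : Qb) ^ n, ⟨(M.mem_iff_ν _).mpr hu1.le, fun σ hσ => ?_⟩, hu1, ?_⟩
    · rw [map_div₀, hx σ hσ, map_pow, map_natCast]
    · field_simp

/-- `A` is a discrete valuation ring. -/
theorem isDiscreteValuationRing_intA (M : LocalModel p P) :
    IsDiscreteValuationRing (intA P) :=
  (valData_intA M).isDiscreteValuationRing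

/-- `𝔪_A = (p)`. -/
theorem maximalIdeal_intA (M : LocalModel p P) :
    haveI := isDiscreteValuationRing_intA M
    maximalIdeal (intA P) = Ideal.span {((p : ℕ) : intA P)} := by
  haveI := isDiscreteValuationRing_intA M
  have h := (valData_intA M).maximalIdeal_eq
  rw [h]
  rfl

/-- `#κ_A = p`. -/
theorem card_residueField_intA (M : LocalModel p P) :
    haveI := isDiscreteValuationRing_intA M
    Nat.card (ResidueField (intA P)) = p := by
  haveI := isDiscreteValuationRing_intA M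
  have hp : (p : ℕ).Prime := Fact.out
  let f : Fin p → ResidueField (intA P) := fun i => residue (intA P) ((i : ℕ) : intA P)
  have hmem : ∀ x : intA P, x ∈ maximalIdeal (intA P) ↔ M.ν (x : Qb) < 1 :=
    (valData_intA M).mem_maximalIdeal_iff
  have hνint : ∀ n : ℤ, M.ν (n : Qb) < 1 ↔ (p : ℤ) ∣ n := by
    intro n
    have h1 : M.ν (n : Qb) = ‖(n : ℚ_[p])‖ := by
      rw [LocalModel.ν, map_intCast]
      have h : ((n : ℤ) : PadicAlgCl p) = algebraMap ℚ_[p] (PadicAlgCl p) (n : ℚ_[p]) := by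
        rw [map_intCast]
      rw [h, PadicAlgCl.norm_extends]
    rw [h1]
    have h2 : ‖(n : ℚ_[p])‖ = ‖(n : ℤ_[p])‖ := by
      rw [PadicInt.norm_def]
      simp
    rw [h2, PadicInt.norm_int_lt_one_iff_dvd]
  have hinj : Function.Injective f := by
    intro i j hij
    have h1 : residue (intA P) (((i : ℕ) : intA P) - ((j : ℕ) : intA P)) = 0 := by
      rw [map_sub]
      exact sub_eq_zero.mpr hij
    rw [residue_eq_zero_iff, hmem] at h1
    have h2 : ((((i : ℕ) : intA P) - ((j : ℕ) : intA P) : intA P) : Qb) =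
        (((i : ℕ) : ℤ) - ((j : ℕ) : ℤ) : ℤ) := by
      push_cast
      rfl
    rw [h2, hνint] at h1
    have h3 : ((i : ℕ) : ℤ) ≡ ((j : ℕ) : ℤ) [ZMOD p] := (Int.modEq_iff_dvd.mpr (by
      have := dvd_neg.mpr h1
      rwa [neg_sub] at this)).symm
    have h4 : (i : ℕ) ≡ (j : ℕ) [MOD p] := Int.natCast_modEq_iff.mp h3
    apply Fin.ext
    rw [Nat.ModEq, Nat.mod_eq_of_lt i.2, Nat.mod_eq_of_lt j.2] at h4
    exact h4
  have hsurj : Function.Surjective f := by
    intro y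
    obtain ⟨x, rfl⟩ := residue_surjective y
    obtain ⟨a, ha⟩ := M.ι_mem_range_of_fixed x.2.2
    have hle : ‖a‖ ≤ 1 := by
      have := (M.mem_iff_ν _).mp x.2.1
      rwa [LocalModel.ν, ha, PadicAlgCl.norm_extends] at this
    set z : ℤ_[p] := ⟨a, hle⟩ with hz
    obtain ⟨n, hn, hxn⟩ := PadicInt.exists_mem_range (p := p) (x := z)
    refine ⟨⟨n, hn⟩, ?_⟩
    show residue (intA P) ((n : ℕ) : intA P) = residue (intA P) x
    rw [← sub_eq_zero, ← map_sub, residue_eq_zero_iff, hmem]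
    rw [IsLocalRing.mem_maximalIdeal, PadicInt.mem_nonunits] at hxn
    have h1 : M.ν ((((n : ℕ) : intA P) - x : intA P) : Qb) = ‖z - (n : ℤ_[p])‖ := by
      have h2 : ((((n : ℕ) : intA P) - x : intA P) : Qb) = (n : Qb) - (x : Qb) := by
        push_cast
        rfl
      rw [h2, LocalModel.ν, map_sub, map_natCast, ha]
      have h3 : ((n : ℕ) : PadicAlgCl p) = algebraMap ℚ_[p] (PadicAlgCl p) (n : ℚ_[p]) := by
        rw [map_natCast]
      rw [h3, ← map_sub, PadicAlgCl.norm_extends, ← norm_neg, neg_sub, PadicInt.norm_def]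
      rw [PadicInt.coe_sub, PadicInt.coe_natCast]
    rw [h1]
    exact hxn
  rw [← Nat.card_eq_of_bijective f ⟨hinj, hsurj⟩, Nat.card_eq_fintype_card, Fintype.card_fin]

end DVRA

end Fermat.Agent.S56.H914

end
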