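import Fermat.Agent.S56.H914.IntDVR

/-!
# Row S56 — W-FLAT-SS, leaf INT (helper914), part 3: `B = levelSet` is a discrete valuation ring

* `ν_pow_card_eq` : for `x ∈ B`, `x ≠ 0`: `ν(x) ^ #Γ = p⁻ᵐ` (norm to `A`).
* `exists_valData_intB` : `∃ ϖ e, ValData ν B ϖ ∧ ν p = ν ϖ ^ e`.
-/

set_option autoImplicit false
set_option linter.style.haveILetI false

open Polynomial IsLocalRing

noncomputable section

namespace Fermat.Agent.S56.H914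

open Fermat.Agent.S56 Fermat.Agent.S56.H716 Fermat.Agent.S56.FL

section DVRB

variable {k : Type} [Field k] {ρbar : ResidualGaloisRep k}
  {c₁ c₂ : GQ → Module.End k ρbar.V} {p : ℕ} [Fact p.Prime] {P : ValuationSubring Qb}

lemma ν_intAct (M : LocalModel p P) (hc₁ : IsAdCocycle ρbar c₁) (hc₂ : IsAdCocycle ρbar c₂)
    (γ : intΓ P hc₁ hc₂) (x : intB ρbar c₁ c₂ P) :
    M.ν ((intActQ P hc₁ hc₂ γ x : intB ρbar c₁ c₂ P) : Qb) = M.ν (x : Qb) := by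
  obtain ⟨σ, rfl⟩ := QuotientGroup.mk'_surjective (intKer P hc₁ hc₂) γ
  rw [intActQ_mk, intAct_apply]
  exact M.ν_apply σ.2 _

/-- Norm to `A`: the value of a nonzero element of `B`, raised to the power `#Γ`, is a power of
`p⁻¹`. -/
theorem ν_pow_card_eq [Finite k] (M : LocalModel p P) (hc₁ : IsAdCocycle ρbar c₁)
    (hc₂ : IsAdCocycle ρbar c₂) {x : Qb} (hx : x ∈ intB ρbar c₁ c₂ P) (hx0 : x ≠ 0) :
    ∃ m : ℕ, M.ν x ^ Nat.card (intΓ P hc₁ hc₂) = ((p : ℝ)⁻¹) ^ m := by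
  classical
  haveI := finite_intΓ P hc₁ hc₂
  letI : Fintype (intΓ P hc₁ hc₂) := Fintype.ofFinite _
  set xb : intB ρbar c₁ c₂ P := ⟨x, hx⟩ with hxb
  set y : intB ρbar c₁ c₂ P := ∏ γ : intΓ P hc₁ hc₂, intActQ P hc₁ hc₂ γ xb with hy
  -- the value of `y`
  have hνy : M.ν (y : Qb) = M.ν x ^ Nat.card (intΓ P hc₁ hc₂) := by
    have h1 : ((y : intB ρbar c₁ c₂ P) : Qb) =
        ∏ γ : intΓ P hc₁ hc₂, ((intActQ P hc₁ hc₂ γ xb : intB ρbar c₁ c₂ P) : Qb) := by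
      rw [hy]
      exact map_prod (intB ρbar c₁ c₂ P).subtype _ _
    rw [LocalModel.ν, h1, map_prod, norm_prod]
    have h2 : ∀ γ ∈ (Finset.univ : Finset (intΓ P hc₁ hc₂)),
        ‖M.ι ((intActQ P hc₁ hc₂ γ xb : intB ρbar c₁ c₂ P) : Qb)‖ = M.ν x := fun γ _ =>
      ν_intAct M hc₁ hc₂ γ xb
    rw [Finset.prod_congr rfl h2, Finset.prod_const, Finset.card_univ, Nat.card_eq_fintype_card]
  have hy0 : (y : Qb) ≠ 0 := by
    intro h0
    rw [h0, M.ν_zero] at hνy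
    exact (pow_pos (M.ν_pos hx0) _).ne hνy
  -- `y` is fixed by `D_P`
  have hfix : ∀ σ ∈ P.decompositionSubgroup ℚ, σ (y : Qb) = (y : Qb) := by
    intro σ hσ
    have h1 : σ (y : Qb) = ((intAct P hc₁ hc₂ ⟨σ, hσ⟩ y : intB ρbar c₁ c₂ P) : Qb) := rfl
    rw [h1]
    congr 1
    rw [hy, map_prod]
    have h2 : ∀ γ : intΓ P hc₁ hc₂, intAct P hc₁ hc₂ ⟨σ, hσ⟩ (intActQ P hc₁ hc₂ γ xb) =
        intActQ P hc₁ hc₂ (QuotientGroup.mk' _ ⟨σ, hσ⟩ * γ) xb := by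
      intro γ
      rw [map_mul, intActQ_mk]
      rfl
    rw [Finset.prod_congr rfl (fun γ _ => h2 γ)]
    exact Equiv.prod_comp (Equiv.mulLeft (QuotientGroup.mk' (intKer P hc₁ hc₂) ⟨σ, hσ⟩))
      (fun γ => intActQ P hc₁ hc₂ γ xb)
  obtain ⟨n, hn⟩ := M.ν_eq_pow_of_fixed hy0 y.2.1 hfix
  exact ⟨n, by rw [← hνy, hn]⟩

lemma natCast_mem_intB (n : ℕ) : (n : Qb) ∈ intB ρbar c₁ c₂ P := natCast_mem (intB ρbar c₁ c₂ P) n

/-- Division inside `B`: if `x, y ∈ B`, `y ≠ 0` and `ν (x / y) ≤ 1` then `x / y ∈ B`. -/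
lemma div_mem_intB (M : LocalModel p P) {x y : Qb} (hx : x ∈ intB ρbar c₁ c₂ P)
    (hy : y ∈ intB ρbar c₁ c₂ P) (h : M.ν (x / y) ≤ 1) : x / y ∈ intB ρbar c₁ c₂ P := by
  refine ⟨(M.mem_iff_ν _).mpr h, fun σ hσ h1 h2 h3 => ?_⟩
  rw [map_div₀, hx.2 σ hσ h1 h2 h3, hy.2 σ hσ h1 h2 h3]

/-- The valuation data of `B`. -/
theorem exists_valData_intB [Finite k] (M : LocalModel p P) (hc₁ : IsAdCocycle ρbar c₁)
    (hc₂ : IsAdCocycle ρbar c₂) :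
    ∃ (ϖ : Qb) (e : ℕ), ValData M.ν (intB ρbar c₁ c₂ P) ϖ ∧ M.ν (p : Qb) = M.ν ϖ ^ e := by
  classical
  haveI := finite_intΓ P hc₁ hc₂
  set d : ℕ := Nat.card (intΓ P hc₁ hc₂) with hd
  have hd0 : 0 < d := Nat.card_pos
  set r : ℝ := (p : ℝ)⁻¹ with hr
  have hr0 : 0 < r := LocalModel.p_inv_pos
  have hr1 : r < 1 := LocalModel.p_inv_lt_one
  -- the set of positive exponents
  let T : ℕ → Prop := fun m => 0 < m ∧ ∃ x ∈ intB ρbar c₁ c₂ P, x ≠ 0 ∧ M.ν x ^ d = r ^ m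
  have hT : ∃ m, T m :=
    ⟨d, hd0, (p : Qb), natCast_mem_intB p, p_ne_zero_Qb, by rw [M.ν_natCast_self]⟩
  set g : ℕ := Nat.find hT with hg
  obtain ⟨hg0, ϖ, hϖB, hϖ0, hϖg⟩ := Nat.find_spec hT
  have hmin : ∀ m, T m → g ≤ m := fun m hm => Nat.find_min' hT hm
  have hϖlt : M.ν ϖ < 1 := by
    by_contra hcon
    rw [not_lt] at hcon
    have h1 : 1 ≤ M.ν ϖ ^ d := one_le_pow₀ hcon
    rw [hϖg] at h1
    exact absurd h1 (not_le.mpr (pow_lt_one₀ hr0.le hr1 hg0.ne'))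
  -- the key factorisation
  have hfac : ∀ x ∈ intB ρbar c₁ c₂ P, x ≠ 0 →
      ∃ n : ℕ, ∃ u ∈ intB ρbar c₁ c₂ P, M.ν u = 1 ∧ x = ϖ ^ n * u := by
    intro x hx hx0
    obtain ⟨m, hm⟩ := ν_pow_card_eq M hc₁ hc₂ hx hx0
    have hϖn : ∀ n : ℕ, ϖ ^ n ≠ 0 := fun n => pow_ne_zero n hϖ0
    set q := m / g with hq
    set s := m % g with hs
    have hmqs : m = g * q + s := (Nat.div_add_mod m g).symm
    have hm' : M.ν x ^ d = r ^ m := hm
    have hϖg' : M.ν ϖ ^ d = r ^ g := hϖg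
    have hu : M.ν (x / ϖ ^ q) ^ d = r ^ s := by
      have hne : (M.ν ϖ ^ q) ^ d ≠ 0 := (pow_pos (pow_pos (M.ν_pos hϖ0) q) d).ne'
      have h1 : M.ν (x / ϖ ^ q) ^ d * r ^ (g * q) = r ^ s * r ^ (g * q) := by
        have h2 : r ^ (g * q) = (M.ν ϖ ^ q) ^ d := by
          rw [pow_mul, ← hϖg', ← pow_mul, ← pow_mul, mul_comm]
        rw [M.ν_div, div_pow, M.ν_pow, h2, div_mul_cancel₀ _ hne, ← h2, hm', ← pow_add,
          add_comm, ← hmqs]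
      exact mul_right_cancel₀ (pow_pos hr0 _).ne' h1
    have hule : M.ν (x / ϖ ^ q) ≤ 1 := by
      by_contra hcon
      rw [not_le] at hcon
      have h1 : 1 < M.ν (x / ϖ ^ q) ^ d := one_lt_pow₀ hcon hd0.ne'
      rw [hu] at h1
      exact absurd h1 (not_lt.mpr (pow_le_one₀ hr0.le hr1.le))
    have huB : x / ϖ ^ q ∈ intB ρbar c₁ c₂ P :=
      div_mem_intB M hx (pow_mem hϖB q) hule
    have hu0 : x / ϖ ^ q ≠ 0 := div_ne_zero hx0 (hϖn q)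
    have hs0 : s = 0 := by
      by_contra hne
      have hsT : T s := ⟨Nat.pos_of_ne_zero hne, x / ϖ ^ q, huB, hu0, hu⟩
      have := hmin s hsT
      have hlt : s < g := Nat.mod_lt m hg0
      omega
    refine ⟨q, x / ϖ ^ q, huB, ?_, ?_⟩
    · rw [hs0, pow_zero] at hu
      have hnn := M.ν_nonneg (x / ϖ ^ q)
      exact (pow_eq_one_iff_of_nonneg hnn hd0.ne').mp hu
    · field_simp
  have hV : ValData M.ν (intB ρbar c₁ c₂ P) ϖ :=
    { map_zero := M.ν_zero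
      map_mul := M.ν_mul
      pos := fun x hx => M.ν_pos hx
      le_one := fun x hx => (M.mem_iff_ν x).mp hx.1
      inv_mem := by
        intro x hx h1
        have h2 : x⁻¹ = 1 / x := by rw [one_div]
        rw [h2]
        refine div_mem_intB M (one_mem _) hx ?_
        rw [M.ν_div, M.ν_one, h1, div_one]
      ϖ_mem := hϖB
      ϖ_ne := hϖ0
      ϖ_lt := hϖlt
      factor := hfac }
  obtain ⟨e, u, -, hu1, hpu⟩ := hfac (p : Qb) (natCast_mem_intB p) p_ne_zero_Qb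
  refine ⟨ϖ, e, hV, ?_⟩
  rw [hpu, M.ν_mul, M.ν_pow, hu1, mul_one]

end DVRB

end Fermat.Agent.S56.H914

end
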