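import Mathlib

/-!
# Row S56 — W-FLAT-SS, leaf INT (helper914), part 0: an abstract criterion for a subring of a
valued field to be a discrete valuation ring (Mathlib only)

`Ω` a field, `ν : Ω → ℝ` multiplicative, `O` a subring of `Ω` of elements with `ν ≤ 1`, closed under
inverses of elements with `ν = 1`, and `ϖ ∈ O` with `0 < ν ϖ < 1` such that every nonzero element of
`O` is `ϖ ^ n * u` with `u ∈ O`, `ν u = 1`.  Then `O` is a discrete valuation ring with maximal
ideal `(ϖ)`, and `(q) = 𝔪 ^ e` whenever `ν q = ν ϖ ^ e`.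

Also: `exists_generator_of_pow_mem`: if all values `ν x` (`x ≠ 0` in a multiplicatively closed set
containing inverses) satisfy `ν x ^ d = r ^ m` (`m : ℤ`) for a fixed `0 < r < 1`, `d > 0`, then the
values are the powers of a single value.
-/

set_option autoImplicit false

open IsLocalRing

namespace Fermat.Agent.S56.H914

/-- The hypotheses of the abstract DVR criterion. -/
structure ValData {Ω : Type*} [Field Ω] (ν : Ω → ℝ) (O : Subring Ω) (ϖ : Ω) : Prop where
  map_zero : ν 0 = 0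
  map_mul : ∀ x y, ν (x * y) = ν x * ν y
  pos : ∀ x, x ≠ 0 → 0 < ν x
  le_one : ∀ x ∈ O, ν x ≤ 1
  inv_mem : ∀ x ∈ O, ν x = 1 → x⁻¹ ∈ O
  ϖ_mem : ϖ ∈ O
  ϖ_ne : ϖ ≠ 0
  ϖ_lt : ν ϖ < 1
  factor : ∀ x ∈ O, x ≠ 0 → ∃ n : ℕ, ∃ u ∈ O, ν u = 1 ∧ x = ϖ ^ n * u

namespace ValData

variable {Ω : Type*} [Field Ω] {ν : Ω → ℝ} {O : Subring Ω} {ϖ : Ω}

lemma map_one (h : ValData ν O ϖ) : ν 1 = 1 := by
  have h1 := h.map_mul 1 1
  rw [mul_one] at h1
  have h2 := h.pos 1 one_ne_zero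
  have h3 : ν 1 * (ν 1 - 1) = 0 := by linear_combination -h1
  rcases mul_eq_zero.mp h3 with h4 | h4
  · exact absurd h4 h2.ne'
  · linarith

lemma map_pow (h : ValData ν O ϖ) (x : Ω) (n : ℕ) : ν (x ^ n) = ν x ^ n := by
  induction n with
  | zero => rw [pow_zero, pow_zero, h.map_one]
  | succ n ih => rw [pow_succ, h.map_mul, ih, pow_succ]

lemma isUnit_of_eq_one (h : ValData ν O ϖ) {u : Ω} (hu : u ∈ O) (h1 : ν u = 1) :
    IsUnit (⟨u, hu⟩ : O) := by
  have hne : u ≠ 0 := by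
    rintro rfl
    rw [h.map_zero] at h1
    exact zero_ne_one h1
  refine ⟨⟨⟨u, hu⟩, ⟨u⁻¹, h.inv_mem u hu h1⟩, ?_, ?_⟩, rfl⟩
  · apply Subtype.ext
    show u * u⁻¹ = 1
    exact mul_inv_cancel₀ hne
  · apply Subtype.ext
    show u⁻¹ * u = 1
    exact inv_mul_cancel₀ hne

lemma eq_one_of_isUnit (h : ValData ν O ϖ) {u : O} (hu : IsUnit u) : ν (u : Ω) = 1 := by
  obtain ⟨⟨a, b, hab, hba⟩, rfl⟩ := hu
  have h1 : ν ((a : Ω) * (b : Ω)) = 1 := by
    have : (a : Ω) * (b : Ω) = 1 := congrArg Subtype.val hab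
    rw [this, h.map_one]
  rw [h.map_mul] at h1
  have ha := h.le_one a a.2
  have hb := h.le_one b b.2
  have ha0 : 0 < ν (a : Ω) := by
    rcases eq_or_ne (a : Ω) 0 with h0 | h0
    · rw [h0, h.map_zero, zero_mul] at h1
      exact absurd h1 zero_ne_one
    · exact h.pos _ h0
  show ν (a : Ω) = 1
  nlinarith

lemma ϖ_pos (h : ValData ν O ϖ) : 0 < ν ϖ := h.pos ϖ h.ϖ_ne

lemma pow_injective (h : ValData ν O ϖ) {m n : ℕ} (hmn : ν ϖ ^ m = ν ϖ ^ n) : m = n := by
  exact pow_right_injective₀ h.ϖ_pos h.ϖ_lt.ne hmn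

lemma irreducible (h : ValData ν O ϖ) : Irreducible (⟨ϖ, h.ϖ_mem⟩ : O) := by
  refine ⟨fun hu => ?_, fun a b hab => ?_⟩
  · have := h.eq_one_of_isUnit hu
    exact h.ϖ_lt.ne this
  · have hab' : ϖ = (a : Ω) * (b : Ω) := congrArg Subtype.val hab
    have ha0 : (a : Ω) ≠ 0 := by
      rintro h0
      rw [h0, zero_mul] at hab'
      exact h.ϖ_ne hab'
    have hb0 : (b : Ω) ≠ 0 := by
      rintro h0
      rw [h0, mul_zero] at hab'
      exact h.ϖ_ne hab'
    obtain ⟨m, u, hu, hu1, hau⟩ := h.factor a a.2 ha0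
    obtain ⟨n, v, hv, hv1, hbv⟩ := h.factor b b.2 hb0
    have h1 : ν ϖ ^ 1 = ν ϖ ^ (m + n) := by
      have := congrArg ν hab'
      rw [h.map_mul, hau, hbv, h.map_mul, h.map_mul, h.map_pow, h.map_pow, hu1, hv1, mul_one,
        mul_one, ← pow_add] at this
      rw [pow_one]
      exact this
    have h2 : 1 = m + n := h.pow_injective h1
    rcases Nat.eq_zero_or_pos m with hm | hm
    · left
      have : (a : Ω) = u := by rw [hau, hm, pow_zero, one_mul]
      have h3 : a = ⟨u, hu⟩ := Subtype.ext this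
      rw [h3]
      exact h.isUnit_of_eq_one hu hu1
    · right
      have hn : n = 0 := by omega
      have : (b : Ω) = v := by rw [hbv, hn, pow_zero, one_mul]
      have h3 : b = ⟨v, hv⟩ := Subtype.ext this
      rw [h3]
      exact h.isUnit_of_eq_one hv hv1

lemma hasFactorization (h : ValData ν O ϖ) :
    IsDiscreteValuationRing.HasUnitMulPowIrreducibleFactorization O := by
  refine ⟨⟨ϖ, h.ϖ_mem⟩, h.irreducible, fun {x} hx => ?_⟩
  have hx0 : (x : Ω) ≠ 0 := fun h0 => hx (Subtype.ext h0)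
  obtain ⟨n, u, hu, hu1, hxu⟩ := h.factor x x.2 hx0
  refine ⟨n, (h.isUnit_of_eq_one hu hu1).unit, ?_⟩
  apply Subtype.ext
  show ϖ ^ n * u = x
  exact hxu.symm

/-- The abstract criterion: `O` is a discrete valuation ring. -/
theorem isDiscreteValuationRing (h : ValData ν O ϖ) : IsDiscreteValuationRing O :=
  IsDiscreteValuationRing.ofHasUnitMulPowIrreducibleFactorization h.hasFactorization

/-- … with maximal ideal `(ϖ)`. -/
theorem maximalIdeal_eq (h : ValData ν O ϖ) :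
    haveI := h.isDiscreteValuationRing
    maximalIdeal O = Ideal.span {(⟨ϖ, h.ϖ_mem⟩ : O)} := by
  haveI := h.isDiscreteValuationRing
  exact h.irreducible.maximalIdeal_eq

/-- If `ν q = ν ϖ ^ e` then `(q) = 𝔪 ^ e`. -/
theorem span_eq_maximalIdeal_pow (h : ValData ν O ϖ) {q : Ω} (hq : q ∈ O) {e : ℕ}
    (hqe : ν q = ν ϖ ^ e) :
    haveI := h.isDiscreteValuationRing
    Ideal.span {(⟨q, hq⟩ : O)} = maximalIdeal O ^ e := by
  haveI := h.isDiscreteValuationRing
  rw [h.maximalIdeal_eq, Ideal.span_singleton_pow]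
  have hq0 : q ≠ 0 := by
    rintro rfl
    rw [h.map_zero] at hqe
    exact (pow_pos h.ϖ_pos e).ne hqe
  obtain ⟨n, u, hu, hu1, hqu⟩ := h.factor q hq hq0
  have hne : n = e := by
    apply h.pow_injective
    rw [← hqe, hqu, h.map_mul, h.map_pow, hu1, mul_one]
  subst hne
  apply Ideal.span_singleton_eq_span_singleton.mpr
  refine Associated.symm ⟨(h.isUnit_of_eq_one hu hu1).unit, ?_⟩
  apply Subtype.ext
  show ϖ ^ n * u = q
  exact hqu.symm

/-- Membership in the maximal ideal. -/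
theorem mem_maximalIdeal_iff (h : ValData ν O ϖ) (x : O) :
    haveI := h.isDiscreteValuationRing
    x ∈ maximalIdeal O ↔ ν (x : Ω) < 1 := by
  haveI := h.isDiscreteValuationRing
  rw [IsLocalRing.mem_maximalIdeal, mem_nonunits_iff]
  constructor
  · intro hx
    rcases (h.le_one x x.2).lt_or_eq with h1 | h1
    · exact h1
    · exact absurd (h.isUnit_of_eq_one x.2 h1) hx
  · intro hx hu
    exact hx.ne (h.eq_one_of_isUnit hu)

end ValData

/-- If `S ⊆ ℤ` is an additive subgroup containing `d > 0`, it is generated by some `g > 0`. -/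
theorem exists_pos_generator (S : AddSubgroup ℤ) {d : ℤ} (hd : 0 < d) (hdS : d ∈ S) :
    ∃ g : ℤ, 0 < g ∧ g ∈ S ∧ ∀ m ∈ S, g ∣ m := by
  obtain ⟨a, ha⟩ := Int.subgroup_cyclic S
  have haS : a ∈ S := by
    rw [ha]
    exact AddSubgroup.mem_closure_singleton_self a
  have hdvd : ∀ m ∈ S, a ∣ m := by
    intro m hm
    rw [ha, AddSubgroup.mem_closure_singleton] at hm
    obtain ⟨n, rfl⟩ := hm
    exact ⟨n, by rw [smul_eq_mul, mul_comm]⟩
  have ha0 : a ≠ 0 := by
    rintro rfl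
    have := hdvd d hdS
    rw [zero_dvd_iff] at this
    exact hd.ne' this
  refine ⟨|a|, abs_pos.mpr ha0, ?_, fun m hm => (abs_dvd a m).mpr (hdvd m hm)⟩
  rcases abs_choice a with h | h
  · rw [h]; exact haS
  · rw [h]; exact S.neg_mem haS

end Fermat.Agent.S56.H914
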