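import Fermat.Agent.S56.FL.LMSpec
import Fermat.Agent.S56.H914.BRPoints
import Fermat.Agent.S56.H914.IntVal

/-!
# Row S56 — W-FLAT-SS, leaf INT (helper914), part 1: the objects `N`, `A`, `B`, `Γ`

* `intKer hc₁ hc₂ P : Subgroup D_P` — `N = {σ ∈ D_P | ρ̄ σ = 1, c₁ σ = 0, c₂ σ = 0}`, normal.
* `intA P : Subring ℚ̄` — `A = P ∩ ℚ̄^{D_P}`;  `intB ρbar c₁ c₂ P : Subring ℚ̄` — `B = levelSet`.
* `intAct` — the action of `D_P` on `B` by ring automorphisms, `intActQ` its descent to `Γ = D_P ⧸ N`.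
* `finite_intΓ` — `Γ` is finite (`k` finite).
-/

set_option autoImplicit false
set_option linter.style.haveILetI false

open Polynomial IsLocalRing

noncomputable section

namespace Fermat.Agent.S56.H914

open Fermat.Agent.S56 Fermat.Agent.S56.H716 Fermat.Agent.S56.FL

section Defs

variable {k : Type} [Field k] {ρbar : ResidualGaloisRep k}
  {c₁ c₂ : GQ → Module.End k ρbar.V} (P : ValuationSubring Qb)

/-- `N = {σ ∈ D_P | ρ̄ σ = 1, c₁ σ = 0, c₂ σ = 0}` as a subgroup of `D_P`. -/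
def intKer (hc₁ : IsAdCocycle ρbar c₁) (hc₂ : IsAdCocycle ρbar c₂) :
    Subgroup (P.decompositionSubgroup ℚ) where
  carrier := {σ | ρbar.ρ (σ : GQ) = 1 ∧ c₁ (σ : GQ) = 0 ∧ c₂ (σ : GQ) = 0}
  mul_mem' := by
    rintro σ τ ⟨h1, h2, h3⟩ ⟨h1', h2', h3'⟩
    refine ⟨?_, ?_, ?_⟩
    · show ρbar.ρ ((σ : GQ) * (τ : GQ)) = 1
      rw [map_mul, h1, h1', one_mul]
    · show c₁ ((σ : GQ) * (τ : GQ)) = 0
      rw [adCocycle_mul_of_ker hc₁ h1, h2, h2', add_zero]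
    · show c₂ ((σ : GQ) * (τ : GQ)) = 0
      rw [adCocycle_mul_of_ker hc₂ h1, h3, h3', add_zero]
  one_mem' := ⟨map_one _, adCocycle_one hc₁, adCocycle_one hc₂⟩
  inv_mem' := by
    rintro σ ⟨h1, h2, h3⟩
    refine ⟨?_, ?_, ?_⟩
    · show ρbar.ρ ((σ : GQ)⁻¹) = 1
      exact rho_inv_eq_one ρbar h1
    · show c₁ ((σ : GQ)⁻¹) = 0
      rw [adCocycle_inv_of_ker hc₁ h1, h2, neg_zero]
    · show c₂ ((σ : GQ)⁻¹) = 0
      rw [adCocycle_inv_of_ker hc₂ h1, h3, neg_zero]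

lemma mem_intKer {hc₁ : IsAdCocycle ρbar c₁} {hc₂ : IsAdCocycle ρbar c₂}
    {σ : P.decompositionSubgroup ℚ} :
    σ ∈ intKer P hc₁ hc₂ ↔ ρbar.ρ (σ : GQ) = 1 ∧ c₁ (σ : GQ) = 0 ∧ c₂ (σ : GQ) = 0 := Iff.rfl

instance intKer_normal (hc₁ : IsAdCocycle ρbar c₁) (hc₂ : IsAdCocycle ρbar c₂) :
    (intKer P hc₁ hc₂).Normal := by
  refine ⟨fun σ hσ g => ?_⟩
  obtain ⟨h1, h2, h3⟩ := hσ
  refine ⟨?_, ?_, ?_⟩
  · show ρbar.ρ ((g : GQ) * (σ : GQ) * (g : GQ)⁻¹) = 1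
    rw [map_mul, map_mul, h1, mul_one, rho_mul_inv]
  · show c₁ ((g : GQ) * (σ : GQ) * (g : GQ)⁻¹) = 0
    rw [adCocycle_conj_of_ker hc₁ h1, h2, mul_zero, zero_mul]
  · show c₂ ((g : GQ) * (σ : GQ) * (g : GQ)⁻¹) = 0
    rw [adCocycle_conj_of_ker hc₂ h1, h3, mul_zero, zero_mul]

/-- `A = P ∩ ℚ̄^{D_P}`. -/
def intA : Subring Qb where
  carrier := {x | x ∈ P ∧ ∀ σ ∈ P.decompositionSubgroup ℚ, σ x = x}
  mul_mem' := by
    rintro x y ⟨hx, hx'⟩ ⟨hy, hy'⟩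
    exact ⟨P.mul_mem _ _ hx hy, fun σ hσ => by rw [map_mul, hx' σ hσ, hy' σ hσ]⟩
  one_mem' := ⟨P.one_mem, fun σ _ => map_one σ⟩
  add_mem' := by
    rintro x y ⟨hx, hx'⟩ ⟨hy, hy'⟩
    exact ⟨P.add_mem _ _ hx hy, fun σ hσ => by rw [map_add, hx' σ hσ, hy' σ hσ]⟩
  zero_mem' := ⟨P.zero_mem, fun σ _ => map_zero σ⟩
  neg_mem' := by
    rintro x ⟨hx, hx'⟩
    exact ⟨P.neg_mem _ hx, fun σ hσ => by rw [map_neg, hx' σ hσ]⟩

lemma mem_intA {x : Qb} :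
    x ∈ intA P ↔ x ∈ P ∧ ∀ σ ∈ P.decompositionSubgroup ℚ, σ x = x := Iff.rfl

variable (ρbar c₁ c₂)

/-- `B = P ∩ ℚ̄^N` (carrier `= levelSet ρbar c₁ c₂ P`). -/
def intB : Subring Qb where
  carrier := levelSet ρbar c₁ c₂ P
  mul_mem' := by
    rintro x y ⟨hx, hx'⟩ ⟨hy, hy'⟩
    exact ⟨P.mul_mem _ _ hx hy, fun σ hσ h1 h2 h3 => by
      rw [map_mul, hx' σ hσ h1 h2 h3, hy' σ hσ h1 h2 h3]⟩
  one_mem' := ⟨P.one_mem, fun σ _ _ _ _ => map_one σ⟩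
  add_mem' := by
    rintro x y ⟨hx, hx'⟩ ⟨hy, hy'⟩
    exact ⟨P.add_mem _ _ hx hy, fun σ hσ h1 h2 h3 => by
      rw [map_add, hx' σ hσ h1 h2 h3, hy' σ hσ h1 h2 h3]⟩
  zero_mem' := ⟨P.zero_mem, fun σ _ _ _ _ => map_zero σ⟩
  neg_mem' := by
    rintro x ⟨hx, hx'⟩
    exact ⟨P.neg_mem _ hx, fun σ hσ h1 h2 h3 => by rw [map_neg, hx' σ hσ h1 h2 h3]⟩

variable {ρbar c₁ c₂}

lemma mem_intB {x : Qb} :
    x ∈ intB ρbar c₁ c₂ P ↔ x ∈ P ∧ ∀ σ ∈ P.decompositionSubgroup ℚ,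
      ρbar.ρ σ = 1 → c₁ σ = 0 → c₂ σ = 0 → σ x = x := Iff.rfl

lemma coe_intB : ((intB ρbar c₁ c₂ P : Subring Qb) : Set Qb) = levelSet ρbar c₁ c₂ P := rfl

lemma intA_le_intB : intA P ≤ intB ρbar c₁ c₂ P := by
  rintro x ⟨hx, hx'⟩
  exact ⟨hx, fun σ hσ _ _ _ => hx' σ hσ⟩

/-- `D_P` preserves `P`. -/
lemma apply_mem_P {σ : GQ} (hσ : σ ∈ P.decompositionSubgroup ℚ) {x : Qb} (hx : x ∈ P) :
    σ x ∈ P :=
  ((Fermat.Agent.S55.Bridge.mem_decompositionSubgroup_iff P σ).mp hσ x).mpr hx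

lemma inv_apply_self (σ : GQ) (x : Qb) : σ⁻¹ (σ x) = x := by
  show (σ⁻¹ * σ) x = x
  rw [inv_mul_cancel]
  rfl

lemma apply_inv_self (σ : GQ) (x : Qb) : σ (σ⁻¹ x) = x := by
  show (σ * σ⁻¹) x = x
  rw [mul_inv_cancel]
  rfl

/-- `D_P` preserves `B`. -/
lemma apply_mem_intB (hc₁ : IsAdCocycle ρbar c₁) (hc₂ : IsAdCocycle ρbar c₂)
    {σ : GQ} (hσ : σ ∈ P.decompositionSubgroup ℚ) {x : Qb} (hx : x ∈ intB ρbar c₁ c₂ P) :
    σ x ∈ intB ρbar c₁ c₂ P := by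
  obtain ⟨hxP, hx'⟩ := hx
  refine ⟨apply_mem_P P hσ hxP, fun τ hτ h1 h2 h3 => ?_⟩
  -- `σ⁻¹ τ σ` satisfies the conditions
  have hmem : σ⁻¹ * τ * σ ∈ P.decompositionSubgroup ℚ :=
    Subgroup.mul_mem _ (Subgroup.mul_mem _ (Subgroup.inv_mem _ hσ) hτ) hσ
  have e1 : ρbar.ρ (σ⁻¹ * τ * σ) = 1 := by
    rw [map_mul, map_mul, h1, mul_one, rho_inv_mul]
  have hconj : ∀ {c : GQ → Module.End k ρbar.V}, IsAdCocycle ρbar c → c τ = 0 →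
      c (σ⁻¹ * τ * σ) = 0 := by
    intro c hc h0
    have := adCocycle_conj_of_ker hc h1 σ⁻¹
    rw [inv_inv] at this
    rw [this, h0, mul_zero, zero_mul]
  have h4 := hx' _ hmem e1 (hconj hc₁ h2) (hconj hc₂ h3)
  have h5 : (σ⁻¹ * τ * σ) x = σ⁻¹ (τ (σ x)) := rfl
  rw [h5] at h4
  have h6 := congrArg σ h4
  rw [apply_inv_self] at h6
  exact h6

variable (hc₁ : IsAdCocycle ρbar c₁) (hc₂ : IsAdCocycle ρbar c₂)

/-- The ring automorphism of `B` induced by `σ ∈ D_P`. -/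
def intAut (σ : P.decompositionSubgroup ℚ) : RingAut (intB ρbar c₁ c₂ P) where
  toFun b := ⟨(σ : GQ) b, apply_mem_intB P hc₁ hc₂ σ.2 b.2⟩
  invFun b := ⟨(σ : GQ)⁻¹ b, apply_mem_intB P hc₁ hc₂ (Subgroup.inv_mem _ σ.2) b.2⟩
  left_inv b := Subtype.ext (inv_apply_self _ _)
  right_inv b := Subtype.ext (apply_inv_self _ _)
  map_mul' a b := Subtype.ext (map_mul (σ : GQ) _ _)
  map_add' a b := Subtype.ext (map_add (σ : GQ) _ _)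

/-- The action of `D_P` on `B`, as a homomorphism to `RingAut B`. -/
def intAct : (P.decompositionSubgroup ℚ) →* RingAut (intB ρbar c₁ c₂ P) where
  toFun := intAut P hc₁ hc₂
  map_one' := by
    ext b
    rfl
  map_mul' σ τ := by
    ext b
    rfl

@[simp] lemma intAct_apply (σ : P.decompositionSubgroup ℚ) (b : intB ρbar c₁ c₂ P) :
    ((intAct P hc₁ hc₂ σ b : intB ρbar c₁ c₂ P) : Qb) = (σ : GQ) (b : Qb) := rfl

lemma intKer_le_ker : intKer P hc₁ hc₂ ≤ (intAct P hc₁ hc₂).ker := by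
  rintro σ ⟨h1, h2, h3⟩
  rw [MonoidHom.mem_ker]
  ext b
  exact b.2.2 _ σ.2 h1 h2 h3

/-- `Γ = D_P ⧸ N`. -/
abbrev intΓ : Type := (P.decompositionSubgroup ℚ) ⧸ intKer P hc₁ hc₂

/-- The action of `Γ` on `B`, as a homomorphism. -/
def intActQ : intΓ P hc₁ hc₂ →* RingAut (intB ρbar c₁ c₂ P) :=
  QuotientGroup.lift (intKer P hc₁ hc₂) (intAct P hc₁ hc₂) (intKer_le_ker P hc₁ hc₂)

@[simp] lemma intActQ_mk (σ : P.decompositionSubgroup ℚ) :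
    intActQ P hc₁ hc₂ (QuotientGroup.mk' _ σ) = intAct P hc₁ hc₂ σ := rfl

/-- `Γ` is finite when `k` is. -/
theorem finite_intΓ [Finite k] : Finite (intΓ P hc₁ hc₂) := by
  classical
  haveI : Finite ρbar.V := Module.finite_of_finite k
  haveI : Finite (Module.End k ρbar.V) := Finite.of_injective (fun f => (f : ρbar.V → ρbar.V))
    DFunLike.coe_injective
  let f : (P.decompositionSubgroup ℚ) →
      Module.End k ρbar.V × Module.End k ρbar.V × Module.End k ρbar.V :=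
    fun σ => (ρbar.ρ (σ : GQ), c₁ (σ : GQ), c₂ (σ : GQ))
  have hf : ∀ σ τ, f σ = f τ →
      (QuotientGroup.mk' (intKer P hc₁ hc₂) σ) = QuotientGroup.mk' (intKer P hc₁ hc₂) τ := by
    intro σ τ h
    have h1 : ρbar.ρ (σ : GQ) = ρbar.ρ (τ : GQ) := congrArg Prod.fst h
    have h2 : c₁ (σ : GQ) = c₁ (τ : GQ) := congrArg (fun x => x.2.1) h
    have h3 : c₂ (σ : GQ) = c₂ (τ : GQ) := congrArg (fun x => x.2.2) h
    rw [QuotientGroup.mk'_eq_mk']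
    refine ⟨σ⁻¹ * τ, ?_, by group⟩
    have e1 : ρbar.ρ ((σ : GQ)⁻¹ * (τ : GQ)) = 1 := by
      rw [map_mul, ← h1, rho_inv_mul]
    have hc : ∀ {c : GQ → Module.End k ρbar.V}, IsAdCocycle ρbar c →
        c (σ : GQ) = c (τ : GQ) → c ((σ : GQ)⁻¹ * (τ : GQ)) = 0 := by
      intro c hc h0
      have h4 := hc.map_mul (σ : GQ) ((σ : GQ)⁻¹ * (τ : GQ))
      rw [mul_inv_cancel_left, h0] at h4
      have h5 : ρbar.ρ (σ : GQ) * c ((σ : GQ)⁻¹ * (τ : GQ)) * ρbar.ρ (σ : GQ)⁻¹ = 0 :=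
        (left_eq_add.mp h4)
      have h6 := congrArg (fun m => ρbar.ρ (σ : GQ)⁻¹ * m * ρbar.ρ (σ : GQ)) h5
      simp only [mul_zero, zero_mul] at h6
      rw [← mul_assoc, ← mul_assoc, rho_inv_mul, one_mul, mul_assoc, rho_inv_mul, mul_one] at h6
      exact h6
    exact ⟨e1, hc hc₁ h2, hc hc₂ h3⟩
  let g : Set.range f → intΓ P hc₁ hc₂ := fun y =>
    QuotientGroup.mk' (intKer P hc₁ hc₂) y.2.choose
  refine Finite.of_surjective g ?_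
  intro γ
  obtain ⟨σ, rfl⟩ := QuotientGroup.mk'_surjective (intKer P hc₁ hc₂) γ
  refine ⟨⟨f σ, σ, rfl⟩, ?_⟩
  exact hf _ _ (Set.mem_range_self σ : f σ ∈ Set.range f).choose_spec

end Defs

end Fermat.Agent.S56.H914

end
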